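import Fermat.Agent.LT.Theta.Bridge.Ring
import Fermat.Agent.LT.Quat.HeckeAlg

/-!
# From the algebra of Brandt matrices to the Hecke ring on functions of sum zero
-/

noncomputable section

namespace Fermat.Agent.LT.Quat

open Matrix

namespace Params

variable (p : Params)

theorem heckeAlg_comm (x y : heckeAlg p) : x * y = y * x := by
  have : IsMulCommutative (heckeAlg p) := Algebra.isMulCommutative_adjoin ℤ <| by
    rintro _ ⟨l, hl, hlv, rfl⟩ _ ⟨l', hl', hlv', rfl⟩
    exact p.brandt_comm ⟨hl, hlv⟩ ⟨hl', hlv'⟩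
  exact mul_comm' x y

theorem mulVec_mem_invFun {B : Matrix (Cls p) (Cls p) ℤ} (hB : B ∈ heckeAlg p)
    {f : Cls p → ℤ} (hf : f ∈ p.invFun) : B *ᵥ f ∈ p.invFun := by
  induction hB using Algebra.adjoin_induction generalizing f with
  | mem x hx =>
    obtain ⟨l, hl, hlv, rfl⟩ := hx
    exact p.brandt_mulVec_mem ⟨hl, hlv⟩ hf
  | algebraMap n =>
    rw [Algebra.algebraMap_eq_smul_one, Matrix.smul_mulVec, Matrix.one_mulVec]
    exact p.invFun.smul_mem n hf
  | add x y _ _ hx hy => rw [Matrix.add_mulVec]; exact p.invFun.add_mem (hx hf) (hy hf)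
  | mul x y _ _ hx hy => rw [← Matrix.mulVec_mulVec]; exact hx (hy hf)

/-- The action of the Brandt algebra on invariant functions. -/
def invAct : heckeAlg p →+* Module.End ℤ p.invFun where
  toFun x := x.1.mulVecLin.restrict fun _ hf => p.mulVec_mem_invFun x.2 hf
  map_one' := LinearMap.ext fun _f => Subtype.ext (Matrix.one_mulVec _)
  map_mul' x y := LinearMap.ext fun _f => Subtype.ext (Matrix.mulVec_mulVec _ x.1 y.1).symm
  map_zero' := LinearMap.ext fun _f => Subtype.ext (Matrix.zero_mulVec _)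
  map_add' x y := LinearMap.ext fun _f => Subtype.ext (Matrix.add_mulVec x.1 y.1 _)

/-- A homomorphism of the Brandt algebra factoring through the invariant functions, with some
`t l - l - 1` mapped to a unit, factors through the Hecke ring. -/
theorem exists_cuspHom {R : Type*} [CommRing R] (π : heckeAlg p →+* R)
    (hπ : ∀ x : heckeAlg p, (∀ f : Cls p → ℤ, (∀ q ∈ p.T, f ∘ p.shiftPerm q = f) →
      x.1 *ᵥ f = 0) → π x = 0)
    (hu : ∃ (l : ℕ) (hl : l.Prime) (hlv : ¬ l ∣ p.level),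
      IsUnit (π (heckeAlg.t p hl hlv) - ((l : R) + 1))) :
    ∃ π₀ : p.CuspHecke →+* R, ∀ (l : ℕ) (hl : l.Prime) (hlv : ¬ l ∣ p.level),
      π₀ (p.tCusp l) = π (heckeAlg.t p hl hlv) := by
  classical
  let : CommRing (heckeAlg p) := { (inferInstance : Ring (heckeAlg p)) with
    mul_comm := p.heckeAlg_comm }
  let t : ℕ → heckeAlg p := fun l =>
    if h : l.Prime ∧ ¬ l ∣ p.level then heckeAlg.t p h.1 h.2 else 0
  have ht : ∀ (l : ℕ) (hl : l.Prime) (hlv : ¬ l ∣ p.level), t l = heckeAlg.t p hl hlv :=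
    fun l hl hlv => dif_pos ⟨hl, hlv⟩
  obtain ⟨l₀, hl₀, hlv₀, hu⟩ := hu
  obtain ⟨π₀, h⟩ := p.exists_descend p.invAct t
    (fun l hl f => by rw [ht l hl.1 hl.2]; rfl) π
    (fun x hx => hπ x fun f hf => by
      have := congrArg (fun φ : Module.End ℤ p.invFun => (φ ⟨f, hf⟩ : Cls p → ℤ)) hx
      exact this)
    ⟨l₀, ⟨hl₀, hlv₀⟩, by rw [ht l₀ hl₀ hlv₀]; exact hu⟩
  exact ⟨π₀, fun l hl hlv => by rw [h l ⟨hl, hlv⟩, ht l hl hlv]⟩

end Params

end Fermat.Agent.LT.Quat
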