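import Fermat.Agent.LT.Theta.Bridge.Commute
import Fermat.Agent.LT.Theta.EigenVec

/-!
# The Hecke ring on invariant functions of sum zero

It is finite free and reduced over `ℤ`, and each of its points is the eigen system of a normalised
eigenform of level `d ∏ T` with `U_q = 1` on `T`.

See `exists_eigenform_of_point` and `exists_descend`.
-/

noncomputable section

namespace Fermat.Agent.LT.Theta.NormOrder.ClassData

variable {N : ℕ} [NeZero N] {H : Type*} [Ring H] [Algebra ℚ H] {𝒪 : NormOrder N H}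
  {C : Type*} [Fintype C] (D : ClassData 𝒪 C)

theorem nb_mul_nb {ℓ ℓ' : ℕ} (hℓ : ℓ.Prime) (hg : D.good ℓ) (hℓ' : ℓ'.Prime) (hg' : D.good ℓ')
    (hne : ℓ ≠ ℓ') (c y : C) :
    ∑ c', D.nb ℓ c c' * D.nb ℓ' c' y = ∑ c', D.nb ℓ' c c' * D.nb ℓ c' y := by
  have key : ∀ {a b : ℕ}, a.Prime → D.good a → b.Prime → D.good b → a ≠ b →
      (∑ c', D.nb a c c' * D.nb b c' y) * 2 = QForm.rep (D.form c y) (b * a) := by
    intro a b ha hga hb hgb hab
    have h := D.rec_nb ha hga c y b
    rw [if_neg fun h => hab ((Nat.prime_dvd_prime_iff_eq ha hb).mp h), add_zero] at h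
    rw [← h, Finset.sum_mul]
    exact Finset.sum_congr rfl fun c' _ => by rw [mul_assoc, D.nb_mul_two hb hgb c' y]
  have h1 := key hℓ hg hℓ' hg' hne
  have h2 := key hℓ' hg' hℓ hg hne.symm
  rw [mul_comm ℓ'] at h1
  omega

end Fermat.Agent.LT.Theta.NormOrder.ClassData

namespace Fermat.Agent.LT.Quat

open Matrix

namespace Params

variable (p : Params)

/-! ## The operators on functions of sum zero -/

/-- The primes prime to the level. -/
def goodSet : Set ℕ := {ℓ | ℓ.Prime ∧ ¬ ℓ ∣ p.level}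

theorem squarefree_P : Squarefree p.P :=
  Nat.squarefree_iff_prime_squarefree.mpr fun x hx h => by
    obtain ⟨s, hs, hd⟩ := (Prime.dvd_finsetProd_iff hx.prime id).mp (dvd_trans (dvd_mul_left x x) h)
    rw [(Nat.prime_dvd_prime_iff_eq hx (p.prime_of_mem hs)).mp hd] at h
    exact p.not_sq_dvd_P hs h

/-- The level is squarefree. -/
theorem squarefree_level : Squarefree p.level :=
  (Nat.squarefree_mul (Nat.Coprime.prod_right fun q hq =>
    ((p.prime_of_mem hq).coprime_iff_not_dvd.mpr (p.T_prime q hq).2.2.1).symm)).mpr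
    ⟨p.d_squarefree, p.squarefree_P⟩

theorem brandt_comm {ℓ ℓ' : ℕ} (h : ℓ ∈ p.goodSet) (h' : ℓ' ∈ p.goodSet) :
    brandt p ℓ * brandt p ℓ' = brandt p ℓ' * brandt p ℓ := by
  rcases eq_or_ne ℓ ℓ' with rfl | hne
  · rfl
  ext X Y
  simp only [Matrix.mul_apply, p.brandt_eq_nb h.1 h.2, p.brandt_eq_nb h'.1 h'.2]
  exact_mod_cast p.classData.nb_mul_nb h.1 h h'.1 h' hne X Y

/-- The functions invariant under the translations. -/
def invFun : Submodule ℤ (Cls p → ℤ) where
  carrier := {f | ∀ q ∈ p.T, f ∘ p.shiftPerm q = f}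
  add_mem' := fun {f g} hf hg q hq => by
    funext X
    simp [show f (p.shiftPerm q X) = f X from congrFun (hf q hq) X,
      show g (p.shiftPerm q X) = g X from congrFun (hg q hq) X]
  zero_mem' := fun q _ => rfl
  smul_mem' := fun n f hf q hq => funext fun X => by
    simp [show f (p.shiftPerm q X) = f X from congrFun (hf q hq) X]

/-- The invariant functions of sum zero. -/
def cuspFun : Submodule ℤ (Cls p → ℤ) where
  carrier := {f | f ∈ p.invFun ∧ ∑ X, f X = 0}
  add_mem' := fun {f g} hf hg => ⟨p.invFun.add_mem hf.1 hg.1, by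
    simp only [Pi.add_apply, Finset.sum_add_distrib, hf.2, hg.2, add_zero]⟩
  zero_mem' := ⟨p.invFun.zero_mem, by simp⟩
  smul_mem' := fun n f hf => ⟨p.invFun.smul_mem n hf.1, by
    simp only [Pi.smul_apply, smul_eq_mul, ← Finset.mul_sum, hf.2, mul_zero]⟩

theorem cuspFun_le : p.cuspFun ≤ p.invFun := fun _ h => h.1

theorem brandt_mulVec_mem {ℓ : ℕ} (h : ℓ ∈ p.goodSet) {f : Cls p → ℤ} (hf : f ∈ p.invFun) :
    brandt p ℓ *ᵥ f ∈ p.invFun := fun q hq => by
  have := p.brandt_mulVec_shiftPerm (R := ℤ) h.1 h.2 q f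
  rw [show (Int.cast : ℤ → ℤ) = id from rfl, Matrix.map_id] at this
  rw [← this, hf q hq]

theorem sum_brandt_mulVec {ℓ : ℕ} (h : ℓ ∈ p.goodSet) (f : Cls p → ℤ) :
    ∑ X, (brandt p ℓ *ᵥ f) X = ((ℓ : ℤ) + 1) * ∑ X, f X := by
  simp only [Matrix.mulVec, dotProduct]
  rw [Finset.sum_comm, Finset.mul_sum]
  refine Finset.sum_congr rfl fun Y _ => ?_
  rw [← Finset.sum_mul, ← p.sum_brandt h.1 h.2 Y]
  exact congrArg (· * f Y) (Finset.sum_congr rfl fun X _ => p.brandt_symm h.1 h.2 X Y)

theorem brandt_mulVec_mem_cuspFun {ℓ : ℕ} (h : ℓ ∈ p.goodSet) {f : Cls p → ℤ}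
    (hf : f ∈ p.cuspFun) : brandt p ℓ *ᵥ f ∈ p.cuspFun :=
  ⟨p.brandt_mulVec_mem h hf.1, by rw [p.sum_brandt_mulVec h, hf.2, mul_zero]⟩

open scoped Classical in
/-- The Hecke operator on invariant functions of sum zero. -/
def cuspEnd (ℓ : ℕ) : Module.End ℤ p.cuspFun :=
  if h : ℓ ∈ p.goodSet then
    (brandt p ℓ).mulVecLin.restrict fun _ hf => p.brandt_mulVec_mem_cuspFun h hf
  else 0

theorem cuspEnd_apply {ℓ : ℕ} (h : ℓ ∈ p.goodSet) (f : p.cuspFun) :
    (p.cuspEnd ℓ f : Cls p → ℤ) = brandt p ℓ *ᵥ (f : Cls p → ℤ) := by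
  rw [cuspEnd, dif_pos h]; rfl

theorem cuspEnd_comm (ℓ ℓ' : ℕ) : Commute (p.cuspEnd ℓ) (p.cuspEnd ℓ') := by
  by_cases h : ℓ ∈ p.goodSet
  · by_cases h' : ℓ' ∈ p.goodSet
    · refine LinearMap.ext fun f => Subtype.ext ?_
      simp only [Module.End.mul_apply, p.cuspEnd_apply h, p.cuspEnd_apply h', Matrix.mulVec_mulVec,
        p.brandt_comm h h']
    · rw [show p.cuspEnd ℓ' = 0 by rw [cuspEnd, dif_neg h']]
      exact Commute.zero_right _
  · rw [show p.cuspEnd ℓ = 0 by rw [cuspEnd, dif_neg h]]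
    exact Commute.zero_left _

/-! ## The Hecke ring -/

/-- The Hecke algebra inside the endomorphisms. -/
def cuspAlg : Subalgebra ℤ (Module.End ℤ p.cuspFun) :=
  Algebra.adjoin ℤ (p.cuspEnd '' p.goodSet)

/-- **The Hecke ring**: the ring generated by the Brandt matrices at the good primes on the
invariant functions of sum zero. -/
def CuspHecke : Type := p.cuspAlg

theorem cuspAlg_comm (x y : p.cuspAlg) : x * y = y * x := by
  have : IsMulCommutative p.cuspAlg := Algebra.isMulCommutative_adjoin ℤ <| by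
    rintro _ ⟨ℓ, -, rfl⟩ _ ⟨ℓ', -, rfl⟩
    exact p.cuspEnd_comm ℓ ℓ'
  exact mul_comm' x y

instance : CommRing p.CuspHecke :=
  { (inferInstanceAs (Ring p.cuspAlg) : Ring p.CuspHecke) with
    mul_comm := p.cuspAlg_comm }

/-- The action. -/
def cuspAct : p.CuspHecke →+* Module.End ℤ p.cuspFun where
  toFun x := x.1
  map_one' := rfl
  map_mul' _ _ := rfl
  map_zero' := rfl
  map_add' _ _ := rfl

theorem cuspAct_injective : Function.Injective p.cuspAct := Subtype.val_injective

theorem cuspEnd_mem {ℓ : ℕ} (h : ℓ ∈ p.goodSet) : p.cuspEnd ℓ ∈ p.cuspAlg :=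
  Algebra.subset_adjoin ⟨ℓ, h, rfl⟩

/-- An element of the algebra in the ring. -/
def toCusp (x : p.cuspAlg) : p.CuspHecke := x

theorem cuspAct_toCusp (x : p.cuspAlg) : p.cuspAct (p.toCusp x) = x.1 := rfl

open scoped Classical in
/-- The generators. -/
def tCusp (ℓ : ℕ) : p.CuspHecke :=
  if h : ℓ ∈ p.goodSet then p.toCusp ⟨p.cuspEnd ℓ, p.cuspEnd_mem h⟩ else 0

theorem cuspAct_tCusp {ℓ : ℕ} (h : ℓ ∈ p.goodSet) : p.cuspAct (p.tCusp ℓ) = p.cuspEnd ℓ := by
  rw [tCusp, dif_pos h, cuspAct_toCusp]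

theorem cuspAct_intCast (n : ℤ) : p.cuspAct n = n • (1 : Module.End ℤ p.cuspFun) := by
  rw [map_intCast, zsmul_one]

/-- The operators at the primes prime to the level generate the Hecke ring on cuspidal functions. -/
theorem gen_cuspHecke : Algebra.adjoin ℤ (p.tCusp '' p.goodSet) = ⊤ := by
  rw [eq_top_iff]
  intro x _
  have hx : p.cuspAct.toIntAlgHom x ∈ p.cuspAlg := x.2
  have e : p.cuspAlg = (Algebra.adjoin ℤ (p.tCusp '' p.goodSet)).map p.cuspAct.toIntAlgHom := by
    rw [AlgHom.map_adjoin, cuspAlg, Set.image_image]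
    exact congrArg _ (Set.image_congr fun ℓ hℓ => (p.cuspAct_tCusp hℓ).symm)
  rw [e] at hx
  obtain ⟨y, hy, hxy⟩ := hx
  exact p.cuspAct_injective hxy ▸ hy

/-- The Hecke ring is finite over `ℤ`. -/
instance : Module.Finite ℤ p.CuspHecke :=
  Module.Finite.of_injective p.cuspAct.toAddMonoidHom.toIntLinearMap p.cuspAct_injective

instance : Module.IsTorsionFree ℤ p.CuspHecke :=
  p.cuspAct_injective.moduleIsTorsionFree (p.cuspAct : p.CuspHecke → Module.End ℤ p.cuspFun)
    fun n x => map_zsmul p.cuspAct n x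

/-- The Hecke ring is free over `ℤ`. -/
instance : Module.Free ℤ p.CuspHecke := Module.free_of_finite_type_torsion_free'

theorem cuspAct_selfAdjoint (x : p.CuspHecke) (f g : p.cuspFun) :
    (p.cuspAct x f : Cls p → ℤ) ⬝ᵥ (g : Cls p → ℤ)
      = (f : Cls p → ℤ) ⬝ᵥ (p.cuspAct x g : Cls p → ℤ) := by
  have hx : x ∈ Algebra.adjoin ℤ (p.tCusp '' p.goodSet) := by rw [p.gen_cuspHecke]; trivial
  induction hx using Algebra.adjoin_induction generalizing f g with
  | mem x hx =>
    obtain ⟨ℓ, hℓ, rfl⟩ := hx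
    rw [p.cuspAct_tCusp hℓ, p.cuspEnd_apply hℓ, p.cuspEnd_apply hℓ, dotProduct_mulVec,
      ← mulVec_transpose]
    congr 1
    congr 1
    ext X Y
    exact p.brandt_symm hℓ.1 hℓ.2 X Y
  | algebraMap n =>
    rw [eq_intCast, cuspAct_intCast, LinearMap.smul_apply, LinearMap.smul_apply,
      Module.End.one_apply, Module.End.one_apply, Submodule.coe_smul, Submodule.coe_smul,
      smul_dotProduct, dotProduct_smul]
  | add x y _ _ hx hy =>
    rw [map_add, LinearMap.add_apply, LinearMap.add_apply, Submodule.coe_add, Submodule.coe_add,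
      add_dotProduct, dotProduct_add, hx, hy]
  | mul x y _ _ hx hy =>
    rw [map_mul, Module.End.mul_apply, hx, hy, ← Module.End.mul_apply, ← map_mul, mul_comm,
      map_mul]

/-- The Hecke ring is reduced, its operators being self-adjoint. -/
instance : IsReduced p.CuspHecke := by
  refine (isReduced_iff_pow_one_lt 2 one_lt_two).mpr fun x hx => p.cuspAct_injective ?_
  rw [map_zero]
  refine LinearMap.ext fun f => Subtype.ext ?_
  rw [LinearMap.zero_apply, Submodule.coe_zero, ← dotProduct_self_eq_zero,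
    cuspAct_selfAdjoint, ← Module.End.mul_apply, ← map_mul, ← sq, hx, map_zero,
    LinearMap.zero_apply, Submodule.coe_zero, dotProduct_zero]

/-! ## Its points and descent to sum zero -/

/-- **Every point of the Hecke ring is the system of a normalised eigenform** with `U_q = 1` at
the primes of `T`. -/
theorem exists_eigenform_of_point (θ : p.CuspHecke →+* ℂ) :
    ∃ g : CuspForm (CongruenceSubgroup.Gamma0 p.level) 2, g.IsNormalizedEigenform ∧
      (∀ ℓ ∈ p.goodSet, ModularFormClass.qCoeff g ℓ = θ (p.tCusp ℓ)) ∧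
      ∀ q ∈ p.T, ModularFormClass.qCoeff g q = 1 := by
  classical
  let b := Module.Free.chooseBasis ℤ p.cuspFun
  let ρ := (LinearMap.toMatrixAlgEquiv b).toAlgHom.toRingHom.comp p.cuspAct
  -- the point gives a complex common eigenvector of the matrices of the action
  obtain ⟨v, hv, heig⟩ := Theta.exists_eigvec_of_ringHom ρ θ fun a ha => by
    rw [p.cuspAct_injective
      ((LinearMap.toMatrixAlgEquiv b).injective (ha.trans (map_zero _).symm) |>.trans
        (map_zero p.cuspAct).symm), map_zero]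
  -- `F` is the complex function on the classes with the coordinates `v`
  let F : Cls p → ℂ := fun X => ∑ j, v j * (((b j : p.cuspFun) : Cls p → ℤ) X : ℂ)
  have hli : LinearIndependent ℂ fun j => algebraMap ℤ ℂ ∘ ((b j : p.cuspFun) : Cls p → ℤ) :=
    linearIndependent_algebraMap_comp_iff (R := ℤ) (S := ℂ) |>.2
      (b.linearIndependent.map' p.cuspFun.subtype (Submodule.ker_subtype _))
  have hF : F ≠ 0 := fun h0 => hv <| funext fun j => by
    refine Fintype.linearIndependent_iff.1 hli v (funext fun X => ?_) j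
    have := congr_fun h0 X
    rw [Finset.sum_apply]
    simpa [F] using this
  -- it has sum zero, is invariant under the translations and is an eigenfunction
  have hsum : ∑ X, F X = 0 := by
    simp only [F]
    rw [Finset.sum_comm]
    refine Finset.sum_eq_zero fun j _ => ?_
    rw [← Finset.mul_sum, ← Int.cast_sum, (b j).2.2, Int.cast_zero, mul_zero]
  have hinv : ∀ q, q.Prime → p.classData.trans q → ∀ X, F (p.classData.shift q X) = F X := by
    intro q _ hq X
    refine Finset.sum_congr rfl fun j _ => ?_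
    rw [show ((b j : p.cuspFun) : Cls p → ℤ) (p.classData.shift q X) = _ from
      congrFun ((b j).2.1 q hq) X]
  have heigF : ∀ ℓ, ℓ.Prime → p.classData.good ℓ → ∀ X,
      (∑ Y, (p.classData.nb ℓ X Y : ℂ) * F Y) = θ (p.tCusp ℓ) * F X := by
    intro ℓ hℓ hg X
    -- the Brandt matrix acts on the basis `b` by the matrix `ρ (T ℓ)`
    have hb : ∀ j, brandt p ℓ *ᵥ ((b j : p.cuspFun) : Cls p → ℤ)
        = ∑ i, ρ (p.tCusp ℓ) i j • ((b i : p.cuspFun) : Cls p → ℤ) := by
      intro j
      have h := congrArg Subtype.val (b.sum_repr (p.cuspEnd ℓ (b j)))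
      rw [p.cuspEnd_apply hg, Submodule.coe_sum] at h
      rw [← h]
      refine Finset.sum_congr rfl fun i _ => ?_
      rw [Submodule.coe_smul]
      congr 1
      show _ = LinearMap.toMatrixAlgEquiv b (p.cuspAct (p.tCusp ℓ)) i j
      rw [LinearMap.toMatrixAlgEquiv_apply, p.cuspAct_tCusp hg]
    calc (∑ Y, (p.classData.nb ℓ X Y : ℂ) * F Y)
        = ∑ j, v j * (((brandt p ℓ *ᵥ ((b j : p.cuspFun) : Cls p → ℤ)) X : ℤ) : ℂ) := by
          simp only [F, Matrix.mulVec, dotProduct, p.brandt_eq_nb hℓ hg.2, Finset.mul_sum,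
            Int.cast_sum, Int.cast_mul, Int.cast_natCast]
          rw [Finset.sum_comm]
          exact Finset.sum_congr rfl fun j _ => Finset.sum_congr rfl fun Y _ => by ring
      _ = ∑ i, ((ρ (p.tCusp ℓ)).map (Int.castRingHom ℂ) *ᵥ v) i
            * (((b i : p.cuspFun) : Cls p → ℤ) X : ℂ) := by
          simp only [hb]
          simp only [Finset.sum_apply, Pi.smul_apply, smul_eq_mul, Int.cast_sum, Int.cast_mul,
            Matrix.mulVec, dotProduct, Matrix.map_apply, eq_intCast, Finset.mul_sum,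
            Finset.sum_mul]
          rw [Finset.sum_comm]
          exact Finset.sum_congr rfl fun j _ => Finset.sum_congr rfl fun Y _ => by ring
      _ = θ (p.tCusp ℓ) * F X := by
          simp only [heig, Pi.smul_apply, smul_eq_mul, F, Finset.mul_sum, mul_assoc]
  -- the theta series of `F` gives the eigenform
  obtain ⟨g, hg, h1, h2⟩ := p.classData.brandtTheta.exists_eigenform p.squarefree_level F hF hsum
    (fun ℓ => θ (p.tCusp ℓ)) heigF hinv
  exact ⟨g, hg, fun ℓ hℓ => h1 ℓ hℓ.1 hℓ, fun q hq => h2 q (p.prime_of_mem hq) hq⟩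

variable {T : Type*} [CommRing T] (act : T →+* Module.End ℤ p.invFun) (t : ℕ → T)

/-- **Descent to sum zero.** A homomorphism factoring through the action on invariant functions
with some `t ℓ - ℓ - 1` mapped to a unit factors through the functions of sum zero. -/
theorem exists_descend
    (ht : ∀ ℓ ∈ p.goodSet, ∀ f : p.invFun,
      (act (t ℓ) f : Cls p → ℤ) = brandt p ℓ *ᵥ (f : Cls p → ℤ))
    {R : Type*} [CommRing R] (π : T →+* R) (hπ : ∀ x, act x = 0 → π x = 0)
    (hu : ∃ ℓ ∈ p.goodSet, IsUnit (π (t ℓ) - ((ℓ : R) + 1))) :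
    ∃ π₀ : p.CuspHecke →+* R, ∀ ℓ ∈ p.goodSet, π₀ (p.tCusp ℓ) = π (t ℓ) := by
  let eT : MvPolynomial p.goodSet ℤ →ₐ[ℤ] T := MvPolynomial.aeval fun ℓ : p.goodSet => t ℓ
  let eC : MvPolynomial p.goodSet ℤ →ₐ[ℤ] p.CuspHecke :=
    MvPolynomial.aeval fun ℓ : p.goodSet => p.tCusp ℓ
  -- both rings receive the polynomial ring in the `t ℓ`, which surjects on the Hecke ring
  have hsur : Function.Surjective eC := by
    rw [← AlgHom.range_eq_top, ← Algebra.adjoin_range_eq_range_aeval, ← p.gen_cuspHecke]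
    congr 1
    ext x
    simp
  -- the two actions agree on the functions of sum zero
  have key : ∀ (P : MvPolynomial p.goodSet ℤ) (f : Cls p → ℤ) (hf : f ∈ p.cuspFun),
      (act (eT P) ⟨f, p.cuspFun_le hf⟩ : Cls p → ℤ) = (p.cuspAct (eC P) ⟨f, hf⟩ : Cls p → ℤ) := by
    intro P
    induction P using MvPolynomial.induction_on with
    | C n =>
      intro f hf
      rw [show eT (MvPolynomial.C n) = (n : T) by simp [eT],
        show eC (MvPolynomial.C n) = (n : p.CuspHecke) from
          (MvPolynomial.aeval_C _ n).trans (eq_intCast _ n), map_intCast, cuspAct_intCast,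
        ← zsmul_one]
      rfl
    | add P P' hP hP' =>
      intro f hf
      simp only [map_add, LinearMap.add_apply, Submodule.coe_add, hP f hf, hP' f hf]
    | mul_X P ℓ hP =>
      intro f hf
      have e1 : act (t ℓ) ⟨f, p.cuspFun_le hf⟩
          = ⟨_, p.cuspFun_le (p.brandt_mulVec_mem_cuspFun ℓ.2 hf)⟩ := Subtype.ext (ht ℓ ℓ.2 _)
      have e2 : p.cuspAct (p.tCusp ℓ) ⟨f, hf⟩ = ⟨_, p.brandt_mulVec_mem_cuspFun ℓ.2 hf⟩ :=
        Subtype.ext (by rw [p.cuspAct_tCusp ℓ.2, p.cuspEnd_apply ℓ.2])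
      simp only [map_mul, Module.End.mul_apply, eT, eC, MvPolynomial.aeval_X, e1, e2]
      exact hP _ _
  obtain ⟨l, hl, hu⟩ := hu
  -- `t l - l - 1` maps into sum zero and `π` sends it to a unit: so `π` kills `ker eC`
  have hker : RingHom.ker eC.toRingHom ≤ RingHom.ker (π.comp eT.toRingHom) := by
    intro P hP
    have hP' : eC P = 0 := hP
    have hz : act (eT P * (t l - ((l : T) + 1))) = 0 := LinearMap.ext fun f => Subtype.ext <| by
      -- the image of `t l - l - 1` has sum zero, as the columns of the Brandt matrix sum to `l + 1`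
      have hm : brandt p l *ᵥ (f : Cls p → ℤ) - ((l : ℤ) + 1) • (f : Cls p → ℤ) ∈ p.cuspFun := by
        refine ⟨p.invFun.sub_mem (p.brandt_mulVec_mem hl f.2) (p.invFun.smul_mem _ f.2), ?_⟩
        simp only [Pi.sub_apply, Pi.smul_apply, smul_eq_mul, Finset.sum_sub_distrib,
          p.sum_brandt_mulVec hl, ← Finset.mul_sum, sub_self]
      have e : act (t l - ((l : T) + 1)) f = ⟨_, p.cuspFun_le hm⟩ := by
        refine Subtype.ext ?_
        rw [show ((l : T) + 1) = (((l : ℤ) + 1 : ℤ) : T) by push_cast; ring, map_sub, map_intCast,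
          LinearMap.sub_apply, Submodule.coe_sub, ht l hl]
        simp
        ring
      rw [map_mul, Module.End.mul_apply, e, key P _ hm, hP', map_zero]
      rfl
    have := hπ _ hz
    rw [map_mul, map_sub, map_add, map_natCast, map_one, hu.mul_left_eq_zero] at this
    exact this
  refine ⟨RingHom.liftOfSurjective eC.toRingHom hsur ⟨π.comp eT.toRingHom, hker⟩, fun ℓ hℓ => ?_⟩
  have := RingHom.liftOfRightInverse_comp_apply eC.toRingHom _ (Function.rightInverse_surjInv hsur)
    ⟨π.comp eT.toRingHom, hker⟩ (MvPolynomial.X ⟨ℓ, hℓ⟩)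
  simpa [eC, eT] using this

end Params

end Fermat.Agent.LT.Quat
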