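import Fermat.Agent.LT.Theta.Bridge.Data

/-!
# The translations commute with the Brandt matrices
-/

noncomputable section

namespace Fermat.Agent.LT.Theta.NormOrder.ClassData

variable {N : ℕ} [NeZero N] {H : Type*} [Ring H] [Algebra ℚ H] {𝒪 : NormOrder N H}
  {C : Type*} [Fintype C] (D : ClassData 𝒪 C)

theorem nb_mul_two {ℓ : ℕ} (hℓ : ℓ.Prime) (hg : D.good ℓ) (c c' : C) :
    D.nb ℓ c c' * 2 = QForm.rep (D.form c c') ℓ := by
  have h1 := D.rec_nb hℓ hg c c' 1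
  rw [Finset.sum_eq_single c' (fun x _ hx => by rw [D.rep_one_ne x c' hx, mul_zero])
    (fun hx => absurd (Finset.mem_univ _) hx), D.rep_one_self] at h1
  simpa [hℓ.one_lt.ne', one_mul] using h1

theorem nb_shift {ℓ q : ℕ} (hℓ : ℓ.Prime) (hg : D.good ℓ) (hq : q.Prime) (ht : D.trans q)
    (c c' : C) : D.nb ℓ (D.shift q c) c' = D.nb ℓ c (D.shift q c') := by
  have h1 := D.nb_mul_two hℓ hg (D.shift q c) c'
  have h2 := D.nb_mul_two hℓ hg (D.shift q c') c
  rw [D.nb_symm hℓ hg (D.shift q c') c] at h2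
  rw [← D.rec_shift hq ht] at h1 h2
  rw [((D.form_spec c c').2.2.2 (ℓ * q)).2] at h1
  rw [((D.form_spec c' c).2.2.2 (ℓ * q)).2,
    ← card_homSet_swap _ _ (mul_ne_zero hℓ.ne_zero hq.ne_zero)] at h2
  omega

end Fermat.Agent.LT.Theta.NormOrder.ClassData

namespace Fermat.Agent.LT.Quat

open Matrix

namespace RIdeal

variable {p : Params} (I : RIdeal p) {q s : ℕ} (hq : q ∈ p.T) (hs : s ∈ p.T)

theorem shift_comm : (I.shift hq).shift hs = (I.shift hs).shift hq := by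
  rcases eq_or_ne q s with rfl | hne
  · rfl
  have key : ∀ {u v : ℕ} (hu : u ∈ p.T) (hv : v ∈ p.T), u ≠ v → ∀ w : p.O,
      w ∈ ((I.shift hu).shift hv).carrier →
        w ∈ I.carrier ∧ (u : ℤ) ∣ I.Q w ∧ (v : ℤ) ∣ I.Q w := by
    rintro u v hu hv - w ⟨⟨hw, t, ht⟩, hv'⟩
    refine ⟨hw, ⟨t, ht⟩, ?_⟩
    rw [(I.shift hu).Q_eq_of_nrm_eq (t := t)
      (by rw [I.nrm_eq hw, ht, shift_n]; push_cast; ring)] at hv'
    rw [ht]
    exact dvd_mul_of_dvd_right hv' _
  have key' : ∀ {u v : ℕ} (hu : u ∈ p.T) (hv : v ∈ p.T), u ≠ v → ∀ w : p.O,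
      w ∈ I.carrier → (u : ℤ) ∣ I.Q w → (v : ℤ) ∣ I.Q w →
        w ∈ ((I.shift hu).shift hv).carrier := by
    intro u v hu hv huv w hw hdu hdv
    obtain ⟨t, ht⟩ := hdu
    refine ⟨⟨hw, t, ht⟩, ?_⟩
    rw [(I.shift hu).Q_eq_of_nrm_eq (t := t) (by rw [I.nrm_eq hw, ht, shift_n]; push_cast; ring)]
    rw [ht] at hdv
    exact ((Nat.prime_iff_prime_int.mp (p.prime_of_mem hv)).dvd_mul.mp hdv).resolve_left fun h =>
      huv ((Nat.prime_dvd_prime_iff_eq (p.prime_of_mem hv) (p.prime_of_mem hu)).mp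
        (Int.natCast_dvd_natCast.mp h)).symm
  refine RIdeal.ext (AddSubgroup.ext fun w => ⟨fun h => ?_, fun h => ?_⟩)
  · obtain ⟨hw, h1, h2⟩ := key hq hs hne w h
    exact key' hs hq hne.symm w hw h2 h1
  · obtain ⟨hw, h1, h2⟩ := key hs hq hne.symm w h
    exact key' hq hs hne w hw h2 h1

end RIdeal

namespace Params

variable (p : Params)

/-- Each translation at a prime is an involution of the classes. -/
theorem shiftPerm_involutive (q : ℕ) : Function.Involutive (p.shiftPerm q) := by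
  intro X
  by_cases hq : q ∈ p.T
  · rw [p.shiftPerm_apply hq, p.shiftPerm_apply hq, shiftCls_involutive hq]
  · simp [Params.shiftPerm, hq]

/-- The translations at two primes commute. -/
theorem shiftPerm_comm (q s : ℕ) (X : Cls p) :
    p.shiftPerm q (p.shiftPerm s X) = p.shiftPerm s (p.shiftPerm q X) := by
  by_cases hq : q ∈ p.T
  · by_cases hs : s ∈ p.T
    · obtain ⟨I, rfl⟩ : ∃ I, cls I = X := ⟨X.out, cls_out X⟩
      simp only [p.shiftPerm_cls hq, p.shiftPerm_cls hs, RIdeal.shift_comm I hs hq]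
    · simp [Params.shiftPerm, hs]
  · simp [Params.shiftPerm, hq]

theorem brandt_shiftPerm {ℓ : ℕ} (hℓ : ℓ.Prime) (hl : ¬ ℓ ∣ p.level) (q : ℕ) (X Y : Cls p) :
    brandt p ℓ (p.shiftPerm q X) Y = brandt p ℓ X (p.shiftPerm q Y) := by
  by_cases hq : q ∈ p.T
  · rw [p.brandt_eq_nb hℓ hl, p.brandt_eq_nb hℓ hl, ← p.classData_shift,
      p.classData.nb_shift hℓ ⟨hℓ, hl⟩ (p.prime_of_mem hq) hq]
  · simp [Params.shiftPerm, hq]

/-- Functions invariant under a translation stay invariant under a Brandt matrix. -/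
theorem brandt_mulVec_shiftPerm {R : Type*} [CommRing R] {ℓ : ℕ} (hℓ : ℓ.Prime)
    (hl : ¬ ℓ ∣ p.level) (q : ℕ) (f : Cls p → R) :
    (brandt p ℓ).map (Int.cast : ℤ → R) *ᵥ (f ∘ p.shiftPerm q)
      = ((brandt p ℓ).map (Int.cast : ℤ → R) *ᵥ f) ∘ p.shiftPerm q := by
  funext X
  simp only [Matrix.mulVec, dotProduct, Matrix.map_apply, Function.comp_apply,
    p.brandt_shiftPerm hℓ hl]
  exact Fintype.sum_equiv (p.shiftPerm q) _ _ fun Y => by rw [p.shiftPerm_involutive q Y]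

end Params

end Fermat.Agent.LT.Quat
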