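import Fermat.Agent.LT.Theta.Bridge.Order

/-!
# The automorphisms of an ideal are `±1`

At `ℓ₁ ∣ d`, `ℓ₁ = 1 mod 12`, the algebra is ramified and `-1`, `-3` are squares, so it contains
no root of unity other than `±1`.
-/

noncomputable section

namespace Fermat.Agent.LT.Quat

open Theta

namespace Params

variable (p : Params)

theorem not_isSquare_neg_rP : ¬ IsSquare (-((p.r : ZMod p.l₁) * (p.P : ZMod p.l₁))) := by
  have : Fact p.l₁.Prime := ⟨p.l₁_prime⟩
  have h2 : p.l₁ ≠ 2 := fun h => by simpa [h] using p.l₁_mod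
  have hj := p.jacobi_ramified p.l₁ p.l₁_prime h2 p.l₁_dvd
  rw [if_neg p.l₁_ne, ← jacobiSym.legendreSym.to_jacobiSym, legendreSym.eq_neg_one_iff] at hj
  simpa [Params.P] using hj

theorem not_dvd_rP : ¬ p.l₁ ∣ p.r * p.P := fun h => by
  refine p.not_isSquare_neg_rP ⟨0, ?_⟩
  rw [← Nat.cast_mul, (ZMod.natCast_eq_zero_iff _ _).mpr h, neg_zero, mul_zero]

/-- The descent at `ℓ₁`. -/
theorem eq_zero_of_norm_eq {n₀ : ℕ} (hn₀ : n₀ = 1 ∨ n₀ = 3) :
    ∀ B C Y W : ℤ, (p.r : ℤ) * p.d * B ^ 2 + p.P * (C ^ 2 + p.d * Y ^ 2) = n₀ * p.r * W ^ 2 →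
      W = 0 := by
  have : Fact p.l₁.Prime := ⟨p.l₁_prime⟩
  -- `d = ℓ₁ d'` with `d'` prime to `ℓ₁`; `r`, `P` and `n₀` are units modulo `ℓ₁`
  obtain ⟨d', hd'⟩ := p.l₁_dvd
  have hd'l : ¬ p.l₁ ∣ d' := fun ⟨e, he⟩ => p.l₁_prime.not_isUnit
    (p.d_squarefree p.l₁ ⟨e, by rw [hd', he, mul_assoc]⟩)
  have hrP := p.not_isSquare_neg_rP
  have hrP0 : (p.r : ZMod p.l₁) * (p.P : ZMod p.l₁) ≠ 0 := by
    rw [← Nat.cast_mul, Ne, ZMod.natCast_eq_zero_iff]
    exact p.not_dvd_rP
  have hr0 : (p.r : ZMod p.l₁) ≠ 0 := left_ne_zero_of_mul hrP0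
  have hP0 : (p.P : ZMod p.l₁) ≠ 0 := right_ne_zero_of_mul hrP0
  have hd0 : (d' : ZMod p.l₁) ≠ 0 := by rwa [Ne, ZMod.natCast_eq_zero_iff]
  have hmod := p.l₁_mod
  -- `-1` and `n₀` are squares modulo `ℓ₁`, as `ℓ₁ = 1 mod 12`
  obtain ⟨i, hi⟩ : IsSquare (-1 : ZMod p.l₁) :=
    ZMod.exists_sq_eq_neg_one_iff.mpr (by omega)
  obtain ⟨s, hs⟩ : IsSquare ((n₀ : ℕ) : ZMod p.l₁) := by
    rcases hn₀ with rfl | rfl
    · exact ⟨1, by simp⟩
    · have : Fact (Nat.Prime 3) := ⟨by norm_num⟩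
      rw [ZMod.exists_sq_eq_prime_iff_of_mod_four_eq_one (p := p.l₁) (q := 3) (by omega)
        (by norm_num)]
      refine ⟨1, ?_⟩
      rw [mul_one, ← Nat.cast_one, ZMod.natCast_eq_natCast_iff']
      omega
  have hs0 : s ≠ 0 := by
    intro h0
    rw [h0, mul_zero, ZMod.natCast_eq_zero_iff] at hs
    have := Nat.le_of_dvd (by omega) hs
    have := p.l₁_prime.two_le
    omega
  -- by descent: a solution with `W ≠ 0` gives one with `W / ℓ₁`
  intro B C Y W
  induction hk : W.natAbs using Nat.strong_induction_on generalizing B C Y W with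
  | _ k ih =>
    intro h
    by_contra hW
    -- `W` and `C` are divisible by `ℓ₁`
    have hdz : ((p.d : ℕ) : ZMod p.l₁) = 0 :=
      (ZMod.natCast_eq_zero_iff _ _).mpr p.l₁_dvd
    have h1 : (p.P : ZMod p.l₁) * (C : ZMod p.l₁) ^ 2 = s * s * p.r * (W : ZMod p.l₁) ^ 2 := by
      have := congrArg ((↑) : ℤ → ZMod p.l₁) h
      push_cast at this
      rw [hdz, hs] at this
      linear_combination this
    have hW0 : (W : ZMod p.l₁) = 0 := by
      by_contra hne
      refine hrP ⟨i * (p.P : ZMod p.l₁) * C / (s * W), ?_⟩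
      field_simp
      linear_combination ((p.P : ZMod p.l₁) * (C : ZMod p.l₁) ^ 2) * hi + h1
    have hC0 : (C : ZMod p.l₁) = 0 := by
      rw [hW0] at h1
      simpa [hP0] using h1
    rw [ZMod.intCast_zmod_eq_zero_iff_dvd] at hW0 hC0
    obtain ⟨W', rfl⟩ := hW0
    obtain ⟨C', rfl⟩ := hC0
    have hl : (p.l₁ : ℤ) ≠ 0 := by exact_mod_cast p.l₁_prime.ne_zero
    -- the equation divided by `ℓ₁`
    have h2 : (p.r : ℤ) * d' * B ^ 2 + p.P * ((p.l₁ : ℤ) * C' ^ 2 + d' * Y ^ 2)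
        = n₀ * p.r * ((p.l₁ : ℤ) * W' ^ 2) := by
      apply mul_left_cancel₀ hl
      rw [hd'] at h
      push_cast at h
      linear_combination h
    -- `B` and `Y` are divisible by `ℓ₁`
    have h3 : (p.r : ZMod p.l₁) * (B : ZMod p.l₁) ^ 2 + p.P * (Y : ZMod p.l₁) ^ 2 = 0 := by
      have := congrArg ((↑) : ℤ → ZMod p.l₁) h2
      push_cast at this
      rw [ZMod.natCast_self] at this
      exact (mul_eq_zero.mp (show (d' : ZMod p.l₁) *
        ((p.r : ZMod p.l₁) * (B : ZMod p.l₁) ^ 2 + p.P * (Y : ZMod p.l₁) ^ 2) = 0 by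
          linear_combination this)).resolve_left hd0
    have hY0 : (Y : ZMod p.l₁) = 0 := by
      by_contra hne
      refine hrP ⟨(p.r : ZMod p.l₁) * B / Y, ?_⟩
      field_simp
      linear_combination -h3
    have hB0 : (B : ZMod p.l₁) = 0 := by
      rw [hY0] at h3
      simpa [hr0] using h3
    rw [ZMod.intCast_zmod_eq_zero_iff_dvd] at hY0 hB0
    obtain ⟨B', rfl⟩ := hB0
    obtain ⟨Y', rfl⟩ := hY0
    -- `(B', C', Y', W')` is again a solution, and a smaller one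
    have hW'0 : W' ≠ 0 := right_ne_zero_of_mul hW
    refine hW'0 (ih W'.natAbs ?_ B' C' Y' W' rfl ?_)
    · rw [← hk, Int.natAbs_mul, Int.natAbs_natCast]
      exact lt_mul_left (Int.natAbs_pos.mpr hW'0) p.l₁_prime.one_lt
    · refine mul_left_cancel₀ hl ?_
      rw [hd']
      push_cast
      linear_combination h2

/-- There are no pure quaternions of norm `1` or `3`. -/
theorem nrm_ne_of_tr_eq_zero {n₀ : ℕ} (hn₀ : n₀ = 1 ∨ n₀ = 3) (y : p.H) (ht : Elt.tr y = 0) :
    Elt.nrm y ≠ (n₀ : ℚ) := by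
  intro hn
  obtain ⟨m, z, hm, hz⟩ := p.exists_clear y
  have htz : Elt.tr z = 0 := by
    have h : Elt.tr (p.toH z) = ((Elt.tr z : ℤ) : ℚ) := Elt.map_tr z _
    rw [hz, Elt.tr_smul, ht, mul_zero] at h
    exact_mod_cast h.symm
  have hnz : Elt.nrm z = (n₀ : ℤ) * (m : ℤ) ^ 2 := by
    have h := p.nrm_toH z
    rw [hz, Elt.nrm_smul, hn] at h
    have : ((Elt.nrm z : ℤ) : ℚ) = (((n₀ : ℤ) * (m : ℤ) ^ 2 : ℤ) : ℚ) := by
      push_cast; linear_combination -h
    exact_mod_cast this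
  have h4 := p.four_r_nrm z
  simp only [Elt.tr, k_r, k_c, Int.cast_eq] at htz
  rw [hnz, htz] at h4
  have h0 := p.eq_zero_of_norm_eq hn₀ (2 * z.b - z.y) (p.r * z.x + p.c * z.y) z.y (2 * m)
    (by linear_combination -h4)
  omega

end Params

namespace RIdeal

variable {p : Params}

/-- The elements of norm one preserving an ideal are `±1`. -/
theorem homSet_self_eq (I : RIdeal p) :
    Theta.homSet p.normOrder.nrmHom (I.toIdl.lat : Set p.H) (I.toIdl.lat : Set p.H) 1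
      = {1, -1} := by
  ext δ
  constructor
  · rintro ⟨hδ, hn⟩
    have hn' : Elt.nrm δ = 1 := hn
    -- The trace `t` of `δ` is an integer with `t ^ 2 ≤ 4`, and `|t| < 2` would give an element of
    -- trace `0` and norm `1` or `3`.
    obtain ⟨P, -, -, hint, -⟩ := NormOrder.exists_homForm I.toIdl I.toIdl
    have hadd : δ + 1 ∈ NormOrder.homLat I.toIdl I.toIdl := fun x hx => by
      rw [add_mul, one_mul]
      exact I.toIdl.lat.add_mem (hδ x hx) hx
    obtain ⟨z, hz⟩ := hint _ hadd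
    rw [div_self I.toIdl.ν_pos.ne', mul_one, p.nrm_normOrder, Elt.nrm_add', hn', mul_one,
      Elt.nrm_one, Elt.tr_conj] at hz
    set t : ℤ := z - 2
    have htr : Elt.tr δ = (t : ℚ) := by simp only [t, Int.cast_sub, Int.cast_ofNat]; linarith
    -- `y = 2 δ - t` has trace `0` and norm `4 - t ^ 2 ≥ 0`
    set y : p.H := (2 : ℚ) • δ - (t : ℚ) • 1 with hy
    have hytr : Elt.tr y = 0 := by
      have h1 : Elt.tr y + Elt.tr ((t : ℚ) • (1 : p.H)) = Elt.tr ((2 : ℚ) • δ) := by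
        rw [← Elt.tr_add, hy, sub_add_cancel]
      rw [Elt.tr_smul, Elt.tr_smul, htr, show Elt.tr (1 : p.H) = 2 by simp [Elt.tr]] at h1
      linarith
    have hyn : Elt.nrm y = 4 - (t : ℚ) ^ 2 := by
      rw [hy, sub_eq_add_neg, ← neg_smul, Elt.nrm_add', mul_smul_comm, mul_one, Elt.tr_smul,
        Elt.tr_conj, Elt.tr_smul, Elt.nrm_smul, Elt.nrm_smul, htr, hn', Elt.nrm_one]
      ring
    have ht4 : t ^ 2 ≤ 4 := by
      have h0 : (0 : ℚ) ≤ Elt.nrm y := by
        rcases eq_or_ne y 0 with h | h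
        · rw [h, Elt.nrm_zero]
        · exact (p.nrm_pos h).le
      rw [hyn] at h0
      have : ((t ^ 2 : ℤ) : ℚ) ≤ ((4 : ℤ) : ℚ) := by push_cast; linarith
      exact_mod_cast this
    have ht2 : -2 ≤ t ∧ t ≤ 2 := ⟨by nlinarith, by nlinarith⟩
    -- `t = ±2` gives `y = 0` and `δ = ±1`; `t = 0` gives `y / 2` of norm `1`, else `y` has norm `3`
    rcases (show t = -2 ∨ t = 2 ∨ t = 0 ∨ t = 1 ∨ t = -1 by omega) with h | h | h | h | h
    · right
      have : y = 0 := by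
        by_contra hy0
        have := p.nrm_pos hy0
        rw [hyn, h] at this
        norm_num at this
      rw [hy, h, sub_eq_zero] at this
      refine smul_right_injective p.H (two_ne_zero : (2 : ℚ) ≠ 0) ?_
      show (2 : ℚ) • δ = (2 : ℚ) • (-1 : p.H)
      rw [this, smul_neg, ← neg_smul]
      norm_num
    · left
      have : y = 0 := by
        by_contra hy0
        have := p.nrm_pos hy0
        rw [hyn, h] at this
        norm_num at this
      rw [hy, h, sub_eq_zero] at this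
      refine smul_right_injective p.H (two_ne_zero : (2 : ℚ) ≠ 0) ?_
      simpa using this
    · exfalso
      refine p.nrm_ne_of_tr_eq_zero (Or.inl rfl) ((2 : ℚ)⁻¹ • y)
        (by rw [Elt.tr_smul, hytr, mul_zero]) ?_
      rw [Elt.nrm_smul, hyn, h]
      norm_num
    all_goals
      exfalso
      refine p.nrm_ne_of_tr_eq_zero (Or.inr rfl) y hytr ?_
      rw [hyn, h]
      norm_num
  · rintro (rfl | h)
    · exact ⟨fun x hx => by rw [one_mul]; exact hx, Elt.nrm_one⟩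
    · rw [Set.mem_singleton_iff] at h
      subst h
      exact ⟨fun x hx => by rw [neg_one_mul]; exact I.toIdl.lat.neg_mem hx, by
        show Elt.nrm (-1 : p.H) = 1
        rw [Elt.nrm_neg, Elt.nrm_one]⟩

theorem units_card (I : RIdeal p) :
    Nat.card (Theta.homSet p.normOrder.nrmHom (I.toIdl.lat : Set p.H)
      (I.toIdl.lat : Set p.H) 1) = 2 := by
  rw [homSet_self_eq, Nat.card_coe_set_eq]
  refine Set.ncard_pair fun h => ?_
  have := congrArg Elt.a h
  simp at this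
  norm_num at this

end RIdeal

end Fermat.Agent.LT.Quat
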