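import Fermat.Agent.LT.Quat.Ideal

/-!
# Identities in the quaternion order

The Gram matrix of the trace form and its determinant; the trace pairing is nondegenerate over
every field in which that determinant does not vanish (`eq_zero_of_tr_mul`).
-/

noncomputable section

namespace Fermat.Agent.LT.Quat.Elt

variable {k : Cst} {R : Type*} [CommRing R] (p q : Elt k R)

theorem smul_ofScalar (t : R) : t • p = ofScalar t * p := Algebra.smul_def t p

/-- An element times its conjugate is its reduced norm. -/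
theorem mul_conj' : p * conj p = nrm p • (1 : Elt k R) := by
  ext <;> simp only [mul_a, mul_b, mul_x, mul_y, conj, smul_a, smul_b, smul_x, smul_y,
    smul_eq_mul, one_a, one_b, one_x, one_y, nrm] <;> ring

theorem conj_mul' : conj p * p = nrm p • (1 : Elt k R) := by
  ext <;> simp only [mul_a, mul_b, mul_x, mul_y, conj, smul_a, smul_b, smul_x, smul_y,
    smul_eq_mul, one_a, one_b, one_x, one_y, nrm] <;> ring

theorem tr_add : tr (p + q) = tr p + tr q := by simp only [tr, add_a, add_x, add_y]; ring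

theorem conj_eq : conj p = tr p • (1 : Elt k R) - p := by
  ext <;> (simp [conj, tr]; try ring)

/-- `p q p = tr(p q) p - n(p) conj q`. -/
theorem mul_mul_self : p * q * p = tr (p * q) • p - nrm p • conj q := by
  ext <;> simp only [mul_a, mul_b, mul_x, mul_y, sub_a, sub_b, sub_x, sub_y, smul_a, smul_b,
    smul_x, smul_y, smul_eq_mul, tr, conj, nrm] <;> ring

/-- The polarisation of the reduced norm is the trace form. -/
theorem nrm_add' : nrm (p + q) = nrm p + tr (conj p * q) + nrm q := by
  simp only [nrm, tr, conj, add_a, add_b, add_x, add_y, mul_a, mul_x, mul_y]; ring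

theorem mul_self_eq : p * p = tr p • p - nrm p • (1 : Elt k R) := by
  ext <;> simp only [mul_a, mul_b, mul_x, mul_y, sub_a, sub_b, sub_x, sub_y, smul_a, smul_b,
    smul_x, smul_y, smul_eq_mul, one_a, one_b, one_x, one_y, tr, nrm] <;> ring

/-- The equivalence with coordinates. -/
def coordEquiv : Elt k R ≃ (Fin 4 → R) where
  toFun z := ![z.a, z.b, z.x, z.y]
  invFun v := ⟨v 0, v 1, v 2, v 3⟩
  left_inv z := by ext <;> rfl
  right_inv v := funext fun i => by fin_cases i <;> rfl

instance [Fintype R] : Fintype (Elt k R) := Fintype.ofEquiv _ (coordEquiv (k := k)).symm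

omit [CommRing R] in
theorem card_elt [Fintype R] : Fintype.card (Elt k R) = Fintype.card R ^ 4 := by
  rw [Fintype.card_congr (coordEquiv (k := k)), Fintype.card_fun, Fintype.card_fin]

/-- The Gram matrix of the norm form, in terms of the structure constants. -/
def gram (k : Cst) : Matrix (Fin 4) (Fin 4) ℤ :=
  !![2, 0, k.r, k.c; 0, 2 * k.dd, 0, -k.dd; k.r, 0, 2 * k.r * k.M, 2 * k.M * k.c;
    k.c, -k.dd, 2 * k.M * k.c, 2 * k.h * k.M]

/-- Its inverse up to `d P`. -/
def gramDual (k : Cst) : Matrix (Fin 4) (Fin 4) ℤ :=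
  !![2 * k.dd * k.M, 0, -k.dd, 0; 0, 2 * k.M, -k.c, k.r; -k.dd, -k.c, 2 * k.h, -2 * k.c;
    0, k.r, -2 * k.c, 2 * k.r]

theorem gram_mul_gramDual (k : Cst) :
    gram k * gramDual k = (k.dd * (4 * k.M - k.r)) • (1 : Matrix (Fin 4) (Fin 4) ℤ) := by
  ext i j
  fin_cases i <;> fin_cases j <;>
    simp [gram, gramDual, Cst.dd, Matrix.mul_apply, Fin.sum_univ_four] <;> ring

theorem det_gram (k : Cst) : (gram k).det = (k.dd * (4 * k.M - k.r)) ^ 2 := by
  rw [Matrix.det_succ_row_zero]
  simp [gram, Cst.dd, Fin.sum_univ_succ, Matrix.det_fin_three, Fin.succAbove]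
  ring

theorem tr_conj_mul_eq (k : Cst) (p q : Elt k ℤ) :
    tr (conj p * q) = coordEquiv p ⬝ᵥ Matrix.mulVec (gram k) (coordEquiv q) := by
  simp [tr, conj, mul_a, mul_x, mul_y, coordEquiv, gram, Cst.dd, dotProduct, Matrix.mulVec,
    Fin.sum_univ_four]
  ring

/-- Nondegeneracy of the trace form over a field in which `d P` is invertible. -/
theorem eq_zero_of_tr_mul {F : Type*} [Field F] (hd : ((k.dd * (4 * k.M - k.r) : ℤ) : F) ≠ 0)
    {z : Elt k F} (h : ∀ o, tr (z * o) = 0) : z = 0 := by
  have h0 : ∀ o, tr (conj z * o) = 0 := fun o => by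
    have := h (conj o)
    have e : tr (conj z * o) = tr (z * conj o) := by
      simp only [tr, conj, mul_a, mul_x, mul_y]; ring
    rw [e]; exact this
  have e1 := h0 ⟨1, 0, 0, 0⟩
  have e2 := h0 ⟨0, 1, 0, 0⟩
  have e3 := h0 ⟨0, 0, 1, 0⟩
  have e4 := h0 ⟨0, 0, 0, 1⟩
  simp [tr, conj, mul_a, mul_x, mul_y] at e1 e2 e3 e4
  simp only [Cst.dd] at hd
  push_cast at hd
  ext <;> refine (mul_eq_zero.mp (?_ : (((k.r : F) * k.h - (k.c : F) ^ 2) * (4 * k.M - k.r)) * _ =
    0)).resolve_left hd
  · linear_combination (2 * ((k.r : F) * k.h - (k.c : F) ^ 2) * k.M) * e1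
      - ((k.r : F) * k.h - (k.c : F) ^ 2) * e3
  · linear_combination (2 * (k.M : F)) * e2 - (k.c : F) * e3 + (k.r : F) * e4
  · linear_combination -((k.r : F) * k.h - (k.c : F) ^ 2) * e1 - (k.c : F) * e2
      + (2 * (k.h : F)) * e3 - (2 * (k.c : F)) * e4
  · linear_combination (k.r : F) * e2 - (2 * (k.c : F)) * e3 + (2 * (k.r : F)) * e4

end Fermat.Agent.LT.Quat.Elt
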