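import Fermat.Agent.LT.Theta.Bridge.Primitive

/-!
# The translation at a prime of `T`

At `q ∈ T` the elements of norm divisible by `q` form the two-sided ideal of square `q O`; it acts
on the classes as an involution.
-/

noncomputable section

namespace Fermat.Agent.LT.Quat

namespace Params

variable {p : Params} {q : ℕ} (hq : q ∈ p.T)

include hq

/-- The chosen places of the parameters are primes. -/
theorem prime_of_mem : q.Prime := (p.T_prime q hq).1

theorem dvd_P_of_mem : q ∣ p.P := Finset.dvd_prod_of_mem _ hq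

theorem not_sq_dvd_P : ¬ q * q ∣ p.P := by
  intro h
  have e : p.P = q * ∏ s ∈ p.T.erase q, s := (Finset.mul_prod_erase _ _ hq).symm
  rw [e] at h
  obtain ⟨s, hs, hd⟩ := (Prime.dvd_finsetProd_iff (p.prime_of_mem hq).prime id).mp
    (Nat.dvd_of_mul_dvd_mul_left (p.prime_of_mem hq).pos h)
  obtain ⟨hne, hs'⟩ := Finset.mem_erase.mp hs
  exact hne ((Nat.prime_dvd_prime_iff_eq (p.prime_of_mem hq) (p.prime_of_mem hs')).mp hd).symm

theorem not_dvd_r_of_mem : ¬ q ∣ p.r := fun h =>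
  p.r_notMem ((Nat.prime_dvd_prime_iff_eq (p.prime_of_mem hq) p.r_prime).mp h ▸ hq)

theorem not_dvd_two_of_mem : ¬ (q : ℤ) ∣ 2 := fun h => (p.T_prime q hq).2.1
  ((Nat.prime_dvd_prime_iff_eq (p.prime_of_mem hq) Nat.prime_two).mp (by exact_mod_cast h))

/-- The form `X² + d Y²` is anisotropic modulo `q`. -/
theorem dvd_of_dvd_sq_add {A B : ℤ} (h : (q : ℤ) ∣ A ^ 2 + p.d * B ^ 2) :
    (q : ℤ) ∣ A ∧ (q : ℤ) ∣ B := by
  obtain ⟨hp, -, -, hj⟩ := p.T_prime q hq
  have : Fact q.Prime := ⟨hp⟩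
  rw [← jacobiSym.legendreSym.to_jacobiSym, legendreSym.eq_neg_one_iff] at hj
  rw [← ZMod.intCast_zmod_eq_zero_iff_dvd] at h ⊢
  rw [← ZMod.intCast_zmod_eq_zero_iff_dvd]
  push_cast at h hj
  have hB : (B : ZMod q) = 0 := by
    by_contra hne
    refine hj ⟨(A : ZMod q) / B, ?_⟩
    field_simp
    linear_combination -h
  refine ⟨?_, hB⟩
  rw [hB] at h
  simpa using h

/-- An element of norm divisible by `q`. -/
theorem dvd_coord_of_dvd_nrm {o : p.O} (h : (q : ℤ) ∣ Elt.nrm o) :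
    (q : ℤ) ∣ 2 * o.a + p.r * o.x + p.c * o.y ∧ (q : ℤ) ∣ 2 * o.b - o.y := by
  refine p.dvd_of_dvd_sq_add hq ?_
  have h1 : (q : ℤ) ∣ (p.r : ℤ) * ((2 * o.a + p.r * o.x + p.c * o.y) ^ 2
      + p.d * (2 * o.b - o.y) ^ 2) := by
    have h2 := (dvd_mul_of_dvd_right h (4 * (p.r : ℤ))).sub (dvd_mul_of_dvd_left
      (Int.natCast_dvd_natCast.mpr (p.dvd_P_of_mem hq))
      ((p.r * o.x + p.c * o.y) ^ 2 + p.d * o.y ^ 2))
    rw [p.four_r_nrm o] at h2
    exact h2.trans (dvd_of_eq (by ring))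
  exact ((Nat.prime_iff_prime_int.mp (p.prime_of_mem hq)).dvd_mul.mp h1).resolve_left
    fun h' => p.not_dvd_r_of_mem hq (Int.natCast_dvd_natCast.mp h')

theorem dvd_tr_of_dvd_nrm {o : p.O} (h : (q : ℤ) ∣ Elt.nrm o) : (q : ℤ) ∣ Elt.tr o := by
  simpa [Elt.tr] using (p.dvd_coord_of_dvd_nrm hq h).1

theorem exists_smul_of_sq_dvd_nrm {o : p.O} (h : (q : ℤ) * q ∣ Elt.nrm o) :
    ∃ o', o = (q : ℤ) • o' := by
  have hp := Nat.prime_iff_prime_int.mp (p.prime_of_mem hq)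
  obtain ⟨hA, hB⟩ := p.dvd_coord_of_dvd_nrm hq (dvd_trans (dvd_mul_right _ _) h)
  have h1 : (q : ℤ) * q ∣ (p.P : ℤ) * ((p.r * o.x + p.c * o.y) ^ 2 + p.d * o.y ^ 2) := by
    have h2 := ((dvd_mul_of_dvd_right h (4 * (p.r : ℤ))).sub
      (dvd_mul_of_dvd_right (mul_dvd_mul hA hA) (p.r : ℤ))).sub
      (dvd_mul_of_dvd_right (mul_dvd_mul hB hB) ((p.r : ℤ) * p.d))
    rw [p.four_r_nrm o] at h2
    exact h2.trans (dvd_of_eq (by ring))
  obtain ⟨P', hP'⟩ := p.dvd_P_of_mem hq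
  rw [hP', Nat.cast_mul, mul_assoc] at h1
  obtain ⟨hC, hy⟩ := p.dvd_of_dvd_sq_add hq
    ((hp.dvd_mul.mp (Int.dvd_of_mul_dvd_mul_left hp.ne_zero h1)).resolve_left fun h' =>
      p.not_sq_dvd_P hq (hP' ▸ mul_dvd_mul_left q (Int.natCast_dvd_natCast.mp h')))
  have hx : (q : ℤ) ∣ o.x := by
    have := hC.sub (dvd_mul_of_dvd_right hy p.c)
    rw [add_sub_cancel_right] at this
    exact (hp.dvd_mul.mp this).resolve_left
      fun h' => p.not_dvd_r_of_mem hq (Int.natCast_dvd_natCast.mp h')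
  have ha : (q : ℤ) ∣ o.a := by
    have := (hA.sub (dvd_mul_of_dvd_right hx (p.r : ℤ))).sub (dvd_mul_of_dvd_right hy p.c)
    rw [show 2 * o.a + p.r * o.x + p.c * o.y - p.r * o.x - p.c * o.y = 2 * o.a by ring] at this
    exact (hp.dvd_mul.mp this).resolve_left (p.not_dvd_two_of_mem hq)
  have hb : (q : ℤ) ∣ o.b := by
    have := hB.add hy
    rw [sub_add_cancel] at this
    exact (hp.dvd_mul.mp this).resolve_left (p.not_dvd_two_of_mem hq)
  obtain ⟨a, ha⟩ := ha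
  obtain ⟨b, hb⟩ := hb
  obtain ⟨x, hx⟩ := hx
  obtain ⟨y, hy⟩ := hy
  exact ⟨⟨a, b, x, y⟩, Elt.ext (by rw [Elt.smul_a, smul_eq_mul]; exact ha)
    (by rw [Elt.smul_b, smul_eq_mul]; exact hb) (by rw [Elt.smul_x, smul_eq_mul]; exact hx)
    (by rw [Elt.smul_y, smul_eq_mul]; exact hy)⟩

end Params

namespace RIdeal

variable {p : Params} (I : RIdeal p) {q : ℕ} (hq : q ∈ p.T)

theorem exists_conj_mul {z z' : p.O} (hz : z ∈ I.carrier) (hz' : z' ∈ I.carrier) :
    ∃ o : p.O, Elt.conj z * z' = (I.n : ℤ) • o ∧ Elt.nrm o = I.Q z * I.Q z' := by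
  obtain ⟨o, ho⟩ := I.dvd z hz z' hz'
  refine ⟨o, ho, mul_left_cancel₀ (pow_ne_zero 2 I.n_ne) ?_⟩
  have h := congrArg Elt.nrm ho
  rw [Elt.nrm_mul, Elt.nrm_conj, Elt.nrm_smul, I.nrm_eq hz, I.nrm_eq hz'] at h
  linear_combination -h

theorem Q_mul {z : p.O} (hz : z ∈ I.carrier) (a : p.O) : I.Q (z * a) = I.Q z * Elt.nrm a :=
  I.Q_eq_of_nrm_eq (by rw [Elt.nrm_mul, I.nrm_eq hz, mul_assoc])

theorem Q_zsmul {z : p.O} (hz : z ∈ I.carrier) (t : ℤ) : I.Q (t • z) = t ^ 2 * I.Q z :=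
  I.Q_eq_of_nrm_eq (by rw [Elt.nrm_smul, I.nrm_eq hz]; ring)

/-- The elements of normalised norm divisible by `q`. -/
def shiftGroup : AddSubgroup p.O where
  carrier := {z | z ∈ I.carrier ∧ (q : ℤ) ∣ I.Q z}
  add_mem' := fun {z z'} hz hz' => by
    obtain ⟨o, ho, hno⟩ := I.exists_conj_mul hz.1 hz'.1
    refine ⟨I.carrier.add_mem hz.1 hz'.1, ?_⟩
    have e : I.Q (z + z') = I.Q z + Elt.tr o + I.Q z' := I.Q_eq_of_nrm_eq (by
      rw [Elt.nrm_add', ho, Elt.tr_smul, I.nrm_eq hz.1, I.nrm_eq hz'.1]; ring)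
    rw [e]
    exact (hz.2.add (p.dvd_tr_of_dvd_nrm hq (hno ▸ dvd_mul_of_dvd_left hz.2 _))).add hz'.2
  zero_mem' := ⟨I.carrier.zero_mem, by simp [RIdeal.Q]⟩
  neg_mem' := fun {z} hz => ⟨I.carrier.neg_mem hz.1, by
    simpa [RIdeal.Q] using hz.2⟩

theorem dvd_of_mem_shiftGroup {z z' : p.O} (hz : z ∈ I.shiftGroup hq)
    (hz' : z' ∈ I.shiftGroup hq) :
    ∃ o : p.O, Elt.conj z * z' = ((q * I.n : ℕ) : ℤ) • o := by
  obtain ⟨o, ho, hno⟩ := I.exists_conj_mul hz.1 hz'.1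
  obtain ⟨o', rfl⟩ := p.exists_smul_of_sq_dvd_nrm hq (hno ▸ mul_dvd_mul hz.2 hz'.2)
  exact ⟨o', by rw [ho, smul_smul, Nat.cast_mul, mul_comm]⟩

/-- The translate at `q`: the elements of normalised norm divisible by `q`, of norm `q n`. -/
def shift : RIdeal p where
  carrier := I.shiftGroup hq
  n := q * I.n
  n_pos := Nat.mul_pos (p.prime_of_mem hq).pos I.n_pos
  mul_mem z hz a := ⟨I.mul_mem z hz.1 a, by rw [I.Q_mul hz.1]; exact dvd_mul_of_dvd_left hz.2 _⟩
  dvd _ hz _ hz' := I.dvd_of_mem_shiftGroup hq hz hz'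
  primitive := primitive_of_primes (I.shiftGroup hq)
    (Nat.mul_pos (p.prime_of_mem hq).pos I.n_pos)
    (fun _ hz _ hz' => I.dvd_of_mem_shiftGroup hq hz hz') fun s hs => by
      have hp := Nat.prime_iff_prime_int.mp (p.prime_of_mem hq)
      obtain ⟨z, hz, k, hk, hks⟩ := I.primitive s hs.pos
      have hks' : ¬ (s : ℤ) ∣ (k : ℤ) := fun h =>
        hs.one_lt.ne' (Nat.eq_one_of_dvd_coprimes hks (Int.natCast_dvd_natCast.mp h) dvd_rfl)
      by_cases hsq : s = q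
      · subst hsq
        refine ⟨z * Elt.eJ, ⟨I.mul_mem z hz _, ?_⟩, fun t ht hdvd => ?_⟩
        · rw [I.Q_mul hz, p.nrm_eJ]
          exact dvd_mul_of_dvd_right (dvd_mul_of_dvd_right
            (Int.natCast_dvd_natCast.mpr (p.dvd_P_of_mem hq)) _) _
        · obtain ⟨P', hP'⟩ := p.dvd_P_of_mem hq
          rw [Elt.nrm_mul, hk, p.nrm_eJ, hP', Nat.cast_mul, Nat.cast_mul] at ht
          have h1 : (k : ℤ) * p.r * P' = t :=
            mul_left_cancel₀ (mul_ne_zero (Nat.cast_ne_zero.mpr hs.ne_zero) I.n_ne)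
              (by linear_combination ht)
          rw [← h1] at hdvd
          rcases hp.dvd_mul.mp hdvd with h | h
          · rcases hp.dvd_mul.mp h with h | h
            · exact hks' h
            · exact p.not_dvd_r_of_mem hq (Int.natCast_dvd_natCast.mp h)
          · exact p.not_sq_dvd_P hq (hP' ▸ mul_dvd_mul_left s (Int.natCast_dvd_natCast.mp h))
      · refine ⟨(q : ℤ) • z, ⟨I.zsmul_mem hz _, ?_⟩, fun t ht hdvd => ?_⟩
        · rw [I.Q_zsmul hz]
          exact dvd_mul_of_dvd_left (dvd_pow_self _ two_ne_zero) _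
        · rw [Elt.nrm_smul, hk, Nat.cast_mul] at ht
          have h1 : (q : ℤ) * k = t :=
            mul_left_cancel₀ (mul_ne_zero hp.ne_zero I.n_ne) (by linear_combination ht)
          rw [← h1] at hdvd
          rcases (Nat.prime_iff_prime_int.mp hs).dvd_mul.mp hdvd with h | h
          · exact hsq ((Nat.prime_dvd_prime_iff_eq hs (p.prime_of_mem hq)).mp
              (Int.natCast_dvd_natCast.mp h))
          · exact hks' h

/-- Translation at `q` multiplies the norm by `q`. -/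
@[simp] theorem shift_n : (I.shift hq).n = q * I.n := rfl

/-- The translate at `q` consists of the elements of normalised norm divisible by `q`. -/
theorem mem_shift {z : p.O} :
    z ∈ (I.shift hq).carrier ↔ z ∈ I.carrier ∧ (q : ℤ) ∣ I.Q z := Iff.rfl

theorem shift_mulLeft (x : p.O) (hx : x ≠ 0) :
    (I.mulLeft x hx).shift hq = (I.shift hq).mulLeft x hx := by
  refine RIdeal.ext (AddSubgroup.ext fun z => ?_)
  have key : ∀ w ∈ I.carrier, (I.mulLeft x hx).Q (x * w) = I.Q w := fun w hw =>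
    (I.mulLeft x hx).Q_eq_of_nrm_eq (by rw [Elt.nrm_mul, I.nrm_eq hw, mulLeft_n, mul_assoc])
  constructor
  · rintro ⟨⟨w, hw, rfl⟩, h⟩
    exact ⟨w, ⟨hw, key w hw ▸ h⟩, rfl⟩
  · rintro ⟨w, ⟨hw, h⟩, rfl⟩
    refine ⟨⟨w, hw, rfl⟩, ?_⟩
    change (q : ℤ) ∣ (I.mulLeft x hx).Q (x * w)
    rwa [key w hw]

theorem rel_shift {I J : RIdeal p} (h : Rel I J) : Rel (I.shift hq) (J.shift hq) := by
  obtain ⟨x, y, hx, hy, e⟩ := rel_iff_exists.mp h
  refine rel_iff_exists.mpr ⟨x, y, hx, hy, ?_⟩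
  have e' : I.mulLeft x hx = J.mulLeft y hy := RIdeal.ext e
  have := congrArg (fun K => (K.shift hq).carrier) e'
  simpa [shift_mulLeft] using this

include hq in
theorem natCast_ne_zero_of_mem : (q : p.O) ≠ 0 := fun h => (p.prime_of_mem hq).ne_zero (by
  have := congrArg Elt.a h
  simpa using this)

/-- The square of the translation is the multiplication by `q`. -/
theorem shift_shift :
    (I.shift hq).shift hq = I.mulLeft (q : p.O) (natCast_ne_zero_of_mem hq) := by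
  refine RIdeal.ext (AddSubgroup.ext fun z => ?_)
  have hp := Nat.prime_iff_prime_int.mp (p.prime_of_mem hq)
  have key : ∀ w ∈ I.carrier, (q : ℤ) ∣ I.Q w →
      ((q : ℤ) ∣ (I.shift hq).Q w ↔ (q : ℤ) * q ∣ I.Q w) := fun w hw h => by
    obtain ⟨t, ht⟩ := h
    rw [(I.shift hq).Q_eq_of_nrm_eq (t := t) (by rw [I.nrm_eq hw, ht, shift_n]; push_cast; ring),
      ht, mul_dvd_mul_iff_left hp.ne_zero]
  constructor
  · rintro ⟨⟨hz, h⟩, h'⟩
    have h2 := (key z hz h).mp h'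
    obtain ⟨z₀, hz₀, k, hk, hkq⟩ := I.primitive q (p.prime_of_mem hq).pos
    obtain ⟨o, ho, hno⟩ := I.exists_conj_mul hz₀ hz
    obtain ⟨o', rfl⟩ := p.exists_smul_of_sq_dvd_nrm hq (hno ▸ dvd_mul_of_dvd_right h2 _)
    obtain ⟨a, b, hab⟩ := Int.isCoprime_iff_nat_coprime.mpr
      (show (Int.natAbs (k : ℤ)).Coprime (Int.natAbs (q : ℤ)) by simpa using hkq)
    refine I.mem_scaled.mpr ⟨a • (z₀ * o') + b • z,
      I.carrier.add_mem (I.zsmul_mem (I.mul_mem _ hz₀ o') a) (I.zsmul_mem hz b), ?_⟩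
    rw [natCast_mul_eq_smul]
    have e := I.exists_smul_eq_mul hk ho
    rw [mul_smul_comm] at e
    calc (q : ℤ) • (a • (z₀ * o') + b • z)
        = a • ((k : ℤ) • z) + b • ((q : ℤ) • z) := by
          rw [e, smul_add, smul_comm (q : ℤ) a, smul_comm (q : ℤ) b]
      _ = z := by rw [smul_smul, smul_smul, ← add_smul, hab, one_smul]
  · intro h
    obtain ⟨w, hw, rfl⟩ := I.mem_scaled.mp h
    rw [natCast_mul_eq_smul]
    have hd : (q : ℤ) * q ∣ I.Q ((q : ℤ) • w) := by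
      rw [I.Q_zsmul hw, sq]; exact dvd_mul_right _ _
    have hd' := dvd_trans (dvd_mul_right _ _) hd
    exact ⟨⟨I.zsmul_mem hw _, hd'⟩, (key _ (I.zsmul_mem hw _) hd').mpr hd⟩

end RIdeal

/-- The translation at `q` on the classes. -/
def shiftCls {p : Params} {q : ℕ} (hq : q ∈ p.T) : Cls p → Cls p :=
  Quot.lift (fun I => cls (I.shift hq)) fun _ _ h => RIdeal.cls_eq_iff.mpr (RIdeal.rel_shift hq h)

/-- Translating twice at a prime `q` of `T` fixes every class. -/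
theorem shiftCls_involutive {p : Params} {q : ℕ} (hq : q ∈ p.T) :
    Function.Involutive (shiftCls hq) := by
  rintro ⟨I⟩
  show cls ((I.shift hq).shift hq) = cls I
  rw [RIdeal.shift_shift, RIdeal.cls_mulLeft]

namespace Params

variable (p : Params)

/-- The translations at the primes of `T` as permutations of the classes. -/
def shiftPerm (q : ℕ) : Equiv.Perm (Cls p) :=
  if h : q ∈ p.T then (shiftCls_involutive h).toPerm (shiftCls h) else 1

theorem shiftPerm_apply {q : ℕ} (hq : q ∈ p.T) (X : Cls p) :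
    p.shiftPerm q X = shiftCls hq X := by
  rw [shiftPerm, dif_pos hq]; rfl

/-- The translation on classes is induced by the translate of ideals. -/
theorem shiftPerm_cls {q : ℕ} (hq : q ∈ p.T) (I : RIdeal p) :
    p.shiftPerm q (cls I) = cls (I.shift hq) := by
  rw [shiftPerm_apply p hq]; rfl

end Params

end Fermat.Agent.LT.Quat
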