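import Fermat.Agent.LT.Theta.Bridge.Nbhd
import Fermat.Agent.LT.Theta.Bridge.Shift
import Fermat.Agent.LT.Theta.Bridge.Units
import Fermat.Agent.LT.Quat.Transport

/-!
# The class data of the order; Brandt matrices and translations

The ideal classes of the order give a `ClassData` for the theta machinery, with neighbour counts
equal to the Brandt matrices. The files of this directory extend the namespace `LT.Quat` of
`LT/Quat`.
-/

noncomputable section

namespace Fermat.Agent.LT.Quat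

open Theta Matrix

variable {p : Params}

namespace Params

variable (p)

/-- A left inverse of the embedding. -/
def back : p.H → p.O := Function.invFun p.toH

theorem back_toH (z : p.O) : p.back (p.toH z) = z := Function.leftInverse_invFun p.toH_injective z

end Params

namespace RIdeal

variable (I J : RIdeal p)

/-- The multiplier carrying the representative of the class to an ideal. -/
theorem exists_mult : ∃ g : p.H,
    p.normOrder.nrm g * (cls J).out.toIdl.ν = J.toIdl.ν ∧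
      NormOrder.translate g ((cls J).out.toIdl.lat : Set p.H) = (J.toIdl.lat : Set p.H) := by
  obtain ⟨g, hg, he⟩ := cls_eq_iff_qequiv.mp (cls_out (cls J))
  exact ⟨g, nrm_mul_n he hg, he⟩

variable {ℓ : ℕ} [Fact ℓ.Prime] (hℓ : ¬ ℓ ∣ p.level)

/-- The reduction of the lattice of an ideal. -/
def reduction : NormOrder.Reduction I.toIdl ℓ where
  red x := I.red hℓ (p.back x)
  act o := redHom hℓ (p.back o)
  act_surj B := by
    obtain ⟨o, ho⟩ := redHom_surjective hℓ B
    exact ⟨p.toH o, p.mem_carrier_iff.mpr ⟨o, rfl⟩, by rw [p.back_toH, ho]⟩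
  red_add := by
    rintro _ ⟨x, hx, rfl⟩ _ ⟨y, hy, rfl⟩
    show I.red hℓ (p.back (p.toH x + p.toH y)) = I.red hℓ (p.back (p.toH x)) +
      I.red hℓ (p.back (p.toH y))
    rw [← map_add, p.back_toH, p.back_toH, p.back_toH, I.red_add hℓ hx hy]
  red_mul := by
    rintro _ ⟨x, hx, rfl⟩ o ho
    obtain ⟨z, rfl⟩ := p.mem_carrier_iff.mp ho
    show I.red hℓ (p.back (p.toH x * p.toH z)) = I.red hℓ (p.back (p.toH x)) *
      redHom hℓ (p.back (p.toH z))
    rw [← map_mul, p.back_toH, p.back_toH, p.back_toH, I.red_mul hℓ hx]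
  red_eq_zero := by
    rintro _ ⟨x, hx, rfl⟩
    show I.red hℓ (p.back (p.toH x)) = 0 ↔ _
    rw [p.back_toH, I.red_eq_zero_iff hℓ hx]
    constructor
    · rintro ⟨y, hy, rfl⟩
      exact ⟨p.toH y, ⟨y, hy, rfl⟩, by
        show p.toH ((ℓ : ℤ) • y) = _
        rw [p.toH_zsmul, Int.cast_natCast]⟩
    · rintro ⟨_, ⟨y, hy, rfl⟩, h⟩
      refine ⟨y, hy, p.toH_injective ?_⟩
      rw [p.toH_zsmul, Int.cast_natCast]
      exact h
  red_det := by
    rintro _ ⟨x, hx, rfl⟩ z hz
    show (I.red hℓ (p.back (p.toH x))).det = 0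
    rw [p.back_toH]
    refine I.det_red_eq_zero hℓ hx (t := z) ?_
    have h : Elt.nrm (p.toH x) = (I.n : ℚ) * ((((ℓ : ℤ) * z : ℤ)) : ℚ) := hz
    rw [p.nrm_toH] at h
    exact_mod_cast h

end RIdeal

/-- The neighbours of a class. -/
def nbhdData {ℓ : ℕ} [Fact ℓ.Prime] (hℓ : ¬ ℓ ∣ p.level) (X : Cls p) :
    NormOrder.Nbhd (fun c : Cls p => c.out.toIdl) X.out.toIdl ℓ where
  reduction := X.out.reduction hℓ
  cls i := cls (X.out.lineIdeal hℓ i)
  mult i := (RIdeal.exists_mult (X.out.lineIdeal hℓ i)).choose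
  nrm_mult i := by
    rw [(RIdeal.exists_mult (X.out.lineIdeal hℓ i)).choose_spec.1]
    show ((ℓ * X.out.n : ℕ) : ℚ) = _
    rw [Nat.cast_mul]
    rfl
  lat_eq i := by
    rw [(RIdeal.exists_mult (X.out.lineIdeal hℓ i)).choose_spec.2]
    ext x
    constructor
    · rintro ⟨z, ⟨hz, hc⟩, rfl⟩
      refine ⟨⟨z, hz, rfl⟩, ?_⟩
      show ColsIn (X.out.red hℓ (p.back (p.toH z))) _
      rwa [p.back_toH]
    · rintro ⟨⟨z, hz, rfl⟩, hc⟩
      change ColsIn (X.out.red hℓ (p.back (p.toH z))) _ at hc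
      rw [p.back_toH] at hc
      exact ⟨z, ⟨hz, hc⟩, rfl⟩

/-- The translate of a class at a prime of `T`. -/
def shiftData {q : ℕ} (hq : q ∈ p.T) (X : Cls p) :
    NormOrder.Shift (fun c : Cls p => c.out.toIdl) X.out.toIdl q (cls (X.out.shift hq)) where
  mult := (RIdeal.exists_mult (X.out.shift hq)).choose
  nrm_mult := by
    rw [(RIdeal.exists_mult (X.out.shift hq)).choose_spec.1]
    show ((q * X.out.n : ℕ) : ℚ) = _
    rw [Nat.cast_mul]
    rfl
  lat_eq := by
    rw [(RIdeal.exists_mult (X.out.shift hq)).choose_spec.2]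
    ext x
    constructor
    · rintro ⟨z, ⟨hz, t, ht⟩, rfl⟩
      refine ⟨⟨z, hz, rfl⟩, t, ?_⟩
      show Elt.nrm (p.toH z) = (X.out.n : ℚ) * _
      rw [p.nrm_toH, X.out.nrm_eq hz, ht]
      push_cast
      ring
    · rintro ⟨⟨z, hz, rfl⟩, t, ht⟩
      refine ⟨z, ⟨hz, t, X.out.Q_eq_of_nrm_eq ?_⟩, rfl⟩
      have h : Elt.nrm (p.toH z) = (X.out.n : ℚ) * ((((q : ℤ) * t : ℤ)) : ℚ) := ht
      rw [p.nrm_toH] at h
      exact_mod_cast h

namespace Params

variable (p)

/-- **The class data of the order.** -/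
def classData : p.normOrder.ClassData (Cls p) where
  idl c := c.out.toIdl
  sep := RIdeal.sep
  units_card c := c.out.units_card
  good ℓ := ℓ.Prime ∧ ¬ ℓ ∣ p.level
  not_dvd_of_good _ h := h.2
  nbhd _ _ h X := nbhdData h.2 X
  trans q := q ∈ p.T
  dvd_of_trans _ hq := dvd_mul_of_dvd_right (p.dvd_P_of_mem hq) _
  shift := p.shiftPerm
  shiftData q _ hq X :=
    (show cls (X.out.shift hq) = p.shiftPerm q X by
      rw [← p.shiftPerm_cls hq, cls_out]) ▸ shiftData hq X

theorem classData_shift : p.classData.shift = p.shiftPerm := rfl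

/-- The neighbour counts are the Brandt matrices. -/
theorem brandt_eq_nb {ℓ : ℕ} (hℓ : ℓ.Prime) (hl : ¬ ℓ ∣ p.level) (X Y : Cls p) :
    brandt p ℓ X Y = p.classData.nb ℓ X Y := by
  classical
  have : Fact ℓ.Prime := ⟨hℓ⟩
  let f : Option (ZMod ℓ) → SubIdeal X.out ℓ := fun i =>
    ⟨X.out.lineIdeal hl i, fun _ h => h.1, rfl⟩
  have hf : Function.Bijective f :=
    ⟨fun i j h => X.out.lineIdeal_injective hl (congrArg Subtype.val h), fun J => by
      obtain ⟨i, hi⟩ := X.out.exists_eq_lineIdeal hl J.1 J.2.1 J.2.2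
      exact ⟨i, Subtype.ext hi.symm⟩⟩
  rw [brandt, ← Nat.card_congr ((Equiv.ofBijective f hf).subtypeEquiv
    (p := fun i => cls (X.out.lineIdeal hl i) = Y) fun i => Iff.rfl),
    Nat.card_eq_fintype_card, Fintype.card_subtype, NormOrder.ClassData.nb,
    dif_pos (show ℓ.Prime ∧ p.classData.good ℓ from ⟨hℓ, hℓ, hl⟩)]
  rfl

/-- The Brandt matrices at good primes are symmetric. -/
theorem brandt_symm {ℓ : ℕ} (hℓ : ℓ.Prime) (hl : ¬ ℓ ∣ p.level) (X Y : Cls p) :
    brandt p ℓ X Y = brandt p ℓ Y X := by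
  rw [p.brandt_eq_nb hℓ hl, p.brandt_eq_nb hℓ hl, p.classData.nb_symm hℓ ⟨hℓ, hl⟩]

/-- The rows of the Brandt matrix at a good prime sum to `ℓ + 1`. -/
theorem sum_brandt {ℓ : ℕ} (hℓ : ℓ.Prime) (hl : ¬ ℓ ∣ p.level) (X : Cls p) :
    ∑ Y, brandt p ℓ X Y = (ℓ : ℤ) + 1 := by
  have : Fact ℓ.Prime := ⟨hℓ⟩
  have h := p.classData.sum_nb (show p.classData.good ℓ from ⟨hℓ, hl⟩) X (fun _ => (1 : ℤ))
  simp only [mul_one, Finset.sum_const, Finset.card_univ, Fintype.card_option, ZMod.card,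
    nsmul_eq_mul, Nat.cast_add, Nat.cast_one] at h
  simp only [p.brandt_eq_nb hℓ hl]
  exact h

end Params

end Fermat.Agent.LT.Quat
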