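import Fermat.Agent.LT.Theta.Bridge.Basic

/-!
# Elements of normalised norm prime to a given number
-/

noncomputable section

namespace Fermat.Agent.LT.Quat

variable {p : Params}

/-- If the normalised norms of a subgroup are prime to each prime somewhere, they are prime to
every number somewhere. -/
theorem primitive_of_primes (A : AddSubgroup p.O) {n : ℕ} (hn : 0 < n)
    (hd : ∀ z ∈ A, ∀ z' ∈ A, ∃ o : p.O, Elt.conj z * z' = (n : ℤ) • o)
    (h : ∀ q : ℕ, q.Prime → ∃ z ∈ A, ∀ t : ℤ, Elt.nrm z = n * t → ¬ (q : ℤ) ∣ t) :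
    ∀ m : ℕ, 0 < m → ∃ z ∈ A, ∃ k : ℕ, Elt.nrm z = n * k ∧ k.Coprime m := by
  classical
  have hn0 : (n : ℤ) ≠ 0 := by exact_mod_cast hn.ne'
  -- every norm is a multiple of `n`
  have hQ : ∀ z ∈ A, ∃ t : ℤ, Elt.nrm z = n * t := fun z hz => by
    obtain ⟨o, ho⟩ := hd z hz z hz
    have h' := congrArg Elt.a ho
    rw [Elt.conj_mul_self, Elt.algebraMap_a, Elt.smul_a, smul_eq_mul] at h'
    exact ⟨o.a, h'⟩
  -- By induction on the set of primes: with `a + b = 1`, `q ∣ a` and the others dividing `b`,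
  -- `a • x + b • y` works.
  have key : ∀ S : Finset ℕ, (∀ q ∈ S, q.Prime) →
      ∃ z ∈ A, ∀ q ∈ S, ∀ t : ℤ, Elt.nrm z = n * t → ¬ (q : ℤ) ∣ t := by
    intro S
    induction S using Finset.induction with
    | empty => exact fun _ => ⟨0, A.zero_mem, fun q hq => absurd hq (Finset.notMem_empty q)⟩
    | insert q S hqS ih =>
      intro hS
      obtain ⟨x, hx, hxS⟩ := ih fun s hs => hS s (Finset.mem_insert_of_mem hs)
      have hq := hS q (Finset.mem_insert_self q S)
      obtain ⟨y, hy, hyq⟩ := h q hq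
      set P := ∏ s ∈ S, s with hP
      have hcop : Nat.Coprime q P := Nat.Coprime.prod_right fun s hs =>
        (Nat.coprime_primes hq (hS s (Finset.mem_insert_of_mem hs))).mpr fun e => hqS (e ▸ hs)
      obtain ⟨u, v, huv⟩ := Int.isCoprime_iff_nat_coprime.mpr
        (show Int.natAbs q |>.Coprime (Int.natAbs P) by simpa using hcop)
      set a : ℤ := u * q
      set b : ℤ := v * P
      refine ⟨a • x + b • y, A.add_mem (A.zsmul_mem hx a) (A.zsmul_mem hy b), fun s hs t ht => ?_⟩
      obtain ⟨tx, htx⟩ := hQ x hx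
      obtain ⟨ty, hty⟩ := hQ y hy
      obtain ⟨o, ho⟩ := hd x hx y hy
      -- the norm is `n (a ^ 2 tx + a b tr o + b ^ 2 ty)`, where `conj x y = n o`
      have hexp : Elt.nrm (a • x + b • y)
          = (n : ℤ) * (a ^ 2 * tx + a * b * Elt.tr o + b ^ 2 * ty) := by
        rw [Elt.nrm_add', Elt.nrm_smul, Elt.nrm_smul, Elt.conj_smul, smul_mul_assoc, mul_smul_comm,
          ho, smul_smul, smul_smul, Elt.tr_smul, htx, hty]
        ring
      rw [hexp] at ht
      have ht' := (mul_left_cancel₀ hn0 ht).symm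
      intro hdvd
      rw [ht'] at hdvd
      have hab : a + b = 1 := huv
      rcases Finset.mem_insert.mp hs with rfl | hs'
      -- modulo `q` the bracket is `ty`, as `a = 0` and `b = 1` there
      · have hb : (s : ℤ) ∣ (b - 1) := ⟨-u, by linear_combination hab⟩
        refine hyq ty hty ?_
        have : ty = (a ^ 2 * tx + a * b * Elt.tr o + b ^ 2 * ty)
            - a * (a * tx + b * Elt.tr o) - (b - 1) * (b + 1) * ty := by ring
        rw [this]
        exact dvd_sub (dvd_sub hdvd (dvd_mul_of_dvd_left (dvd_mul_left _ _) _))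
          (dvd_mul_of_dvd_left (dvd_mul_of_dvd_left hb _) _)
      -- modulo the other primes it is `tx`
      · have hbd : (s : ℤ) ∣ b := dvd_mul_of_dvd_right
          (Int.natCast_dvd_natCast.mpr (Finset.dvd_prod_of_mem _ hs')) v
        refine hxS s hs' tx htx ?_
        have : tx = (a ^ 2 * tx + a * b * Elt.tr o + b ^ 2 * ty)
            - b * (a * Elt.tr o + b * ty) - (a - 1) * (a + 1) * tx := by ring
        rw [this]
        refine dvd_sub (dvd_sub hdvd (dvd_mul_of_dvd_left hbd _))
          (dvd_mul_of_dvd_left (dvd_mul_of_dvd_left ?_ _) _)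
        rw [show a - 1 = -b by linear_combination hab]
        exact hbd.neg_right
  -- take the primes of `m`
  intro m hm
  obtain ⟨z, hz, hzS⟩ := key m.primeFactors fun q hq => Nat.prime_of_mem_primeFactors hq
  obtain ⟨t, ht⟩ := hQ z hz
  have ht0 : 0 ≤ t := by
    have := p.nrm_nonneg z
    rw [ht] at this
    exact nonneg_of_mul_nonneg_right this (by exact_mod_cast hn)
  refine ⟨z, hz, t.toNat, by rw [ht, Int.toNat_of_nonneg ht0], ?_⟩
  refine Nat.coprime_of_dvd fun q hq hq1 hq2 => hzS q ?_ t ht ?_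
  · exact Nat.mem_primeFactors.mpr ⟨hq, hq2, hm.ne'⟩
  · rw [← Int.toNat_of_nonneg ht0]
    exact_mod_cast hq1

end Fermat.Agent.LT.Quat
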