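import Fermat.Agent.LT.Theta.Bridge.Order
import Fermat.Agent.LT.Theta.Bridge.Primitive

/-!
# Reduction of an ideal modulo a good prime; the sublattices of the lines

For a good prime `ℓ` an ideal reduces to matrices (`red`); its subideals of relative norm `ℓ`
are the `lineIdeal`s of the lines (`exists_eq_lineIdeal`).
-/

noncomputable section

namespace Fermat.Agent.LT.Theta

open Matrix

variable {F : Type*} [Field F]

/-! ## Matrices with columns on a line -/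

theorem colsIn_mul {A : Matrix (Fin 2) (Fin 2) F} {v : Fin 2 → F} (h : ColsIn A v)
    (B : Matrix (Fin 2) (Fin 2) F) : ColsIn (A * B) v := by
  choose t ht using h
  exact fun j => ⟨t 0 * B 0 j + t 1 * B 1 j, fun i => by
    rw [Matrix.mul_apply, Fin.sum_univ_two, ht 0 i, ht 1 i]; ring⟩

theorem colsIn_add {A B : Matrix (Fin 2) (Fin 2) F} {v : Fin 2 → F} (h : ColsIn A v)
    (h' : ColsIn B v) : ColsIn (A + B) v := by
  choose t ht using h
  choose s hs using h'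
  exact fun j => ⟨t j + s j, fun i => by rw [Matrix.add_apply, ht j i, hs j i]; ring⟩

theorem colsIn_neg {A : Matrix (Fin 2) (Fin 2) F} {v : Fin 2 → F} (h : ColsIn A v) :
    ColsIn (-A) v := by
  choose t ht using h
  exact fun j => ⟨-t j, fun i => by rw [Matrix.neg_apply, ht j i]; ring⟩

theorem colsIn_zero (v : Fin 2 → F) : ColsIn (0 : Matrix (Fin 2) (Fin 2) F) v :=
  fun _ => ⟨0, fun _ => by simp⟩

theorem adjugate_mul_colsIn {A B : Matrix (Fin 2) (Fin 2) F} {v : Fin 2 → F} (h : ColsIn A v)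
    (h' : ColsIn B v) : A.adjugate * B = 0 := by
  choose t ht using h
  choose s hs using h'
  ext i j
  fin_cases i <;>
    simp [Matrix.adjugate_fin_two, Matrix.mul_apply, Fin.sum_univ_two, ht, hs] <;> ring

end Fermat.Agent.LT.Theta

namespace Fermat.Agent.LT.Quat

open Theta Matrix

namespace Elt.Units2

variable {k : Cst} {F : Type*} [Field F] (U : Units2 k F)

theorem trace_toMat (a : Elt k F) : (U.toMat a).trace = Elt.tr a := by
  rw [Matrix.trace_fin_two]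
  show tr (a * U.e) + tr (a * U.f) = tr a
  rw [← tr_add, ← mul_add, U.add_ef, mul_one]

end Elt.Units2

variable {p : Params} {ℓ : ℕ} [Fact ℓ.Prime] (hℓ : ¬ ℓ ∣ p.level)

/-! ## Reduction of the order -/

include hℓ in
theorem disc_ne_zero : ((p.k.dd * (4 * p.k.M - p.k.r) : ℤ) : ZMod ℓ) ≠ 0 := by
  rw [p.disc_eq, Int.cast_natCast]
  exact fun h => hℓ ((ZMod.natCast_eq_zero_iff _ _).mp h)

/-- Matrix units modulo `ℓ`. -/
def units2 : Elt.Units2 p.k (ZMod ℓ) := (Elt.exists_units2 (disc_ne_zero hℓ)).some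

/-- The reduction of the order to matrices. -/
def redHom : p.O →+* Matrix (Fin 2) (Fin 2) (ZMod ℓ) :=
  (units2 hℓ).splitEquiv.toRingHom.comp (Elt.map (Int.castRingHom (ZMod ℓ)))

theorem redHom_surjective : Function.Surjective (redHom hℓ) := by
  intro B
  obtain ⟨z, rfl⟩ := (units2 hℓ).splitEquiv.surjective B
  refine ⟨⟨(z.a.val : ℤ), (z.b.val : ℤ), (z.x.val : ℤ), (z.y.val : ℤ)⟩, ?_⟩
  show (units2 hℓ).splitEquiv _ = _
  congr 1
  ext <;> simp

theorem det_redHom (o : p.O) : (redHom hℓ o).det = ((Elt.nrm o : ℤ) : ZMod ℓ) := by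
  show ((units2 hℓ).toMat _).det = _
  rw [Elt.Units2.det_toMat, Elt.map_nrm, eq_intCast]

theorem trace_redHom (o : p.O) : (redHom hℓ o).trace = ((Elt.tr o : ℤ) : ZMod ℓ) := by
  show ((units2 hℓ).toMat _).trace = _
  rw [Elt.Units2.trace_toMat, Elt.map_tr, eq_intCast]

theorem redHom_conj (o : p.O) : redHom hℓ (Elt.conj o) = (redHom hℓ o).adjugate := by
  show (units2 hℓ).toMat _ = ((units2 hℓ).toMat _).adjugate
  rw [Elt.map_conj, Elt.Units2.toMat_conj]

theorem redHom_zsmul (t : ℤ) (o : p.O) : redHom hℓ (t • o) = (t : ZMod ℓ) • redHom hℓ o := by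
  rw [map_zsmul, Int.cast_smul_eq_zsmul]

theorem redHom_eq_zero_iff (o : p.O) : redHom hℓ o = 0 ↔ ∃ o', o = (ℓ : ℤ) • o' := by
  constructor
  · intro h
    have h0 : Elt.map (Int.castRingHom (ZMod ℓ)) o = 0 :=
      (units2 hℓ).splitEquiv.injective (h.trans (map_zero _).symm)
    have ha := congrArg Elt.a h0
    have hb := congrArg Elt.b h0
    have hx := congrArg Elt.x h0
    have hy := congrArg Elt.y h0
    simp only [Elt.map_a, Elt.map_b, Elt.map_x, Elt.map_y, Elt.zero_a, Elt.zero_b, Elt.zero_x,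
      Elt.zero_y, eq_intCast, ZMod.intCast_zmod_eq_zero_iff_dvd] at ha hb hx hy
    obtain ⟨a, ha⟩ := ha
    obtain ⟨b, hb⟩ := hb
    obtain ⟨x, hx⟩ := hx
    obtain ⟨y, hy⟩ := hy
    exact ⟨⟨a, b, x, y⟩, Elt.ext (by rw [Elt.smul_a, smul_eq_mul]; exact ha)
      (by rw [Elt.smul_b, smul_eq_mul]; exact hb) (by rw [Elt.smul_x, smul_eq_mul]; exact hx)
      (by rw [Elt.smul_y, smul_eq_mul]; exact hy)⟩
  · rintro ⟨o', rfl⟩
    rw [redHom_zsmul]
    simp

/-! ## Reduction of an ideal -/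

namespace RIdeal

variable (I : RIdeal p)

theorem exists_chosen : ∃ z ∈ I.carrier, ∃ k : ℕ, Elt.nrm z = I.n * k ∧ k.Coprime ℓ :=
  I.primitive ℓ (Fact.out : ℓ.Prime).pos

/-- The chosen element of normalised norm prime to `ℓ`. -/
def base (ℓ : ℕ) [Fact ℓ.Prime] : p.O := (I.exists_chosen (ℓ := ℓ)).choose

theorem base_mem : I.base ℓ ∈ I.carrier := (I.exists_chosen (ℓ := ℓ)).choose_spec.1

/-- Division of the coordinates by the norm of the ideal. -/
def divN (o : p.O) : p.O := ⟨o.a / I.n, o.b / I.n, o.x / I.n, o.y / I.n⟩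

theorem divN_smul (o : p.O) : I.divN ((I.n : ℤ) • o) = o := by
  ext <;> simp only [divN, Elt.smul_a, Elt.smul_b, Elt.smul_x, Elt.smul_y, smul_eq_mul,
    Int.mul_ediv_cancel_left _ I.n_ne]

/-- The cofactor of `x` with respect to the chosen element. -/
def cof (ℓ : ℕ) [Fact ℓ.Prime] (x : p.O) : p.O := I.divN (Elt.conj (I.base ℓ) * x)

theorem conj_base_mul {x : p.O} (hx : x ∈ I.carrier) :
    Elt.conj (I.base ℓ) * x = (I.n : ℤ) • I.cof ℓ x := by
  obtain ⟨o, ho⟩ := I.dvd _ (I.base_mem (ℓ := ℓ)) x hx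
  rw [cof, ho, I.divN_smul]

theorem cof_add {x y : p.O} (hx : x ∈ I.carrier) (hy : y ∈ I.carrier) :
    I.cof ℓ (x + y) = I.cof ℓ x + I.cof ℓ y :=
  smul_injective_O I.n_ne (by
    rw [← I.conj_base_mul (I.carrier.add_mem hx hy), mul_add, smul_add, I.conj_base_mul hx,
      I.conj_base_mul hy])

theorem cof_mul {x : p.O} (hx : x ∈ I.carrier) (o : p.O) : I.cof ℓ (x * o) = I.cof ℓ x * o :=
  smul_injective_O I.n_ne (by
    rw [← I.conj_base_mul (I.mul_mem x hx o), ← mul_assoc, I.conj_base_mul hx, smul_mul_assoc])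

theorem cof_zsmul {x : p.O} (hx : x ∈ I.carrier) (t : ℤ) : I.cof ℓ (t • x) = t • I.cof ℓ x :=
  smul_injective_O I.n_ne (by
    rw [← I.conj_base_mul (I.zsmul_mem hx t), mul_smul_comm, I.conj_base_mul hx, smul_comm])

/-- The normalised norm of the chosen element. -/
def baseNorm (ℓ : ℕ) [Fact ℓ.Prime] : ℕ := (I.exists_chosen (ℓ := ℓ)).choose_spec.2.choose

theorem nrm_base : Elt.nrm (I.base ℓ) = I.n * I.baseNorm ℓ :=
  (I.exists_chosen (ℓ := ℓ)).choose_spec.2.choose_spec.1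

theorem coprime_baseNorm : (I.baseNorm ℓ).Coprime ℓ :=
  (I.exists_chosen (ℓ := ℓ)).choose_spec.2.choose_spec.2

theorem baseNorm_ne_zero : (I.baseNorm ℓ : ZMod ℓ) ≠ 0 := by
  intro h
  rw [ZMod.natCast_eq_zero_iff] at h
  exact (Fact.out : ℓ.Prime).one_lt.ne'
    (Nat.eq_one_of_dvd_coprimes (I.coprime_baseNorm (ℓ := ℓ)) h dvd_rfl)

/-- The reduction of the ideal. -/
def red (x : p.O) : Matrix (Fin 2) (Fin 2) (ZMod ℓ) := redHom hℓ (I.cof ℓ x)

theorem red_add {x y : p.O} (hx : x ∈ I.carrier) (hy : y ∈ I.carrier) :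
    I.red hℓ (x + y) = I.red hℓ x + I.red hℓ y := by
  simp only [red, I.cof_add hx hy, map_add]

theorem red_mul {x : p.O} (hx : x ∈ I.carrier) (o : p.O) :
    I.red hℓ (x * o) = I.red hℓ x * redHom hℓ o := by
  simp only [red, I.cof_mul hx o, map_mul]

theorem red_zsmul {x : p.O} (hx : x ∈ I.carrier) (t : ℤ) :
    I.red hℓ (t • x) = (t : ZMod ℓ) • I.red hℓ x := by
  simp only [red, I.cof_zsmul hx t, redHom_zsmul]

theorem red_zero : I.red hℓ 0 = 0 := by
  have h := I.red_zsmul hℓ I.carrier.zero_mem 0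
  rwa [zero_smul, Int.cast_zero, zero_smul] at h

theorem red_neg {x : p.O} (hx : x ∈ I.carrier) : I.red hℓ (-x) = -I.red hℓ x := by
  have h := I.red_zsmul hℓ hx (-1)
  rwa [neg_one_smul, Int.cast_neg, Int.cast_one, neg_one_smul] at h

theorem red_eq_zero_iff {x : p.O} (hx : x ∈ I.carrier) :
    I.red hℓ x = 0 ↔ ∃ y ∈ I.carrier, x = (ℓ : ℤ) • y := by
  constructor
  · intro h
    obtain ⟨o, ho⟩ := (redHom_eq_zero_iff hℓ _).mp h
    have hk := I.exists_smul_eq_mul (I.nrm_base (ℓ := ℓ)) (I.conj_base_mul hx)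
    obtain ⟨a, b, hab⟩ := Int.isCoprime_iff_nat_coprime.mpr
      (show (Int.natAbs (I.baseNorm ℓ : ℤ)).Coprime (Int.natAbs (ℓ : ℤ)) by
        simpa using I.coprime_baseNorm (ℓ := ℓ))
    refine ⟨a • (I.base ℓ * o) + b • x,
      I.carrier.add_mem (I.zsmul_mem (I.mul_mem _ I.base_mem o) a) (I.zsmul_mem hx b), ?_⟩
    have hz : (I.baseNorm ℓ : ℤ) • x = (ℓ : ℤ) • (I.base ℓ * o) := by
      rw [hk, ho, mul_smul_comm]
    calc x = (a * (I.baseNorm ℓ : ℤ) + b * ℓ) • x := by rw [hab, one_smul]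
      _ = a • ((I.baseNorm ℓ : ℤ) • x) + (ℓ : ℤ) • (b • x) := by
        rw [add_smul, mul_smul, mul_comm b, mul_smul]
      _ = _ := by rw [hz, smul_comm a, ← smul_add]
  · rintro ⟨y, hy, rfl⟩
    rw [I.red_zsmul hℓ hy]
    simp

theorem det_red_eq_zero {x : p.O} (hx : x ∈ I.carrier) {t : ℤ}
    (ht : Elt.nrm x = (I.n : ℤ) * ((ℓ : ℤ) * t)) : (I.red hℓ x).det = 0 := by
  rw [red, det_redHom]
  have h := congrArg Elt.nrm (I.conj_base_mul (ℓ := ℓ) hx)
  rw [Elt.nrm_mul, Elt.nrm_conj, I.nrm_base, Elt.nrm_smul, ht] at h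
  have h' : Elt.nrm (I.cof ℓ x) = (ℓ : ℤ) * ((I.baseNorm ℓ : ℤ) * t) :=
    mul_left_cancel₀ (pow_ne_zero 2 I.n_ne) (by linear_combination -h)
  rw [h']
  simp

/-- For elements of the ideal with reductions on one line the products `conj x x'` are divisible
by `ℓ n`. -/
theorem dvd_of_colsIn {v : Fin 2 → ZMod ℓ} {x x' : p.O} (hx : x ∈ I.carrier)
    (hx' : x' ∈ I.carrier) (h : ColsIn (I.red hℓ x) v) (h' : ColsIn (I.red hℓ x') v) :
    ∃ o : p.O, Elt.conj x * x' = ((ℓ * I.n : ℕ) : ℤ) • o := by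
  obtain ⟨o, ho⟩ := I.dvd x hx x' hx'
  have e : Elt.conj (I.cof ℓ x) * I.cof ℓ x' = (I.baseNorm ℓ : ℤ) • o := by
    have h1 : Elt.conj (Elt.conj (I.base ℓ) * x) * (Elt.conj (I.base ℓ) * x')
        = Elt.conj x * (I.base ℓ * Elt.conj (I.base ℓ)) * x' := by
      rw [Elt.conj_mul, Elt.conj_conj]
      simp only [mul_assoc]
    rw [mul_conj_eq_smul, mul_smul_comm, mul_one, smul_mul_assoc, ho, I.nrm_base,
      I.conj_base_mul hx, I.conj_base_mul hx', Elt.conj_smul, smul_mul_assoc, mul_smul_comm,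
      smul_smul, smul_smul] at h1
    refine smul_injective_O (mul_ne_zero I.n_ne I.n_ne) ?_
    rw [h1, smul_smul]
    congr 1
    ring
  have h0 : redHom hℓ o = 0 := by
    have h2 := congrArg (redHom hℓ) e
    rw [map_mul, redHom_conj, redHom_zsmul] at h2
    change (I.red hℓ x).adjugate * I.red hℓ x' = _ at h2
    rw [adjugate_mul_colsIn h h', eq_comm, smul_eq_zero, Int.cast_natCast] at h2
    exact h2.resolve_left I.baseNorm_ne_zero
  obtain ⟨o', rfl⟩ := (redHom_eq_zero_iff hℓ o).mp h0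
  refine ⟨o', ?_⟩
  rw [ho, smul_smul, Nat.cast_mul, mul_comm]

/-! ## The sublattices of the lines -/

/-- The elements with reduction on a line. -/
def lineGroup (i : Option (ZMod ℓ)) : AddSubgroup p.O where
  carrier := {x | x ∈ I.carrier ∧ ColsIn (I.red hℓ x) (stdLine (ZMod ℓ) i)}
  add_mem' := fun {a b} ha hb => ⟨I.carrier.add_mem ha.1 hb.1, by
    rw [I.red_add hℓ ha.1 hb.1]; exact colsIn_add ha.2 hb.2⟩
  zero_mem' := ⟨I.carrier.zero_mem, by rw [I.red_zero hℓ]; exact colsIn_zero _⟩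
  neg_mem' := fun {a} ha => ⟨I.carrier.neg_mem ha.1, by
    rw [I.red_neg hℓ ha.1]; exact colsIn_neg ha.2⟩

/-- An element on the line with normalised norm exactly divisible by `ℓ` and nonzero reduction. -/
theorem exists_line_element (i : Option (ZMod ℓ)) :
    ∃ x ∈ I.lineGroup hℓ i, I.red hℓ x ≠ 0 ∧
      ∀ t : ℤ, Elt.nrm x = ((ℓ * I.n : ℕ) : ℤ) * t → ¬ (ℓ : ℤ) ∣ t := by
  set w := stdLine (ZMod ℓ) i with hw
  have hw0 : w ≠ 0 := (lineSystem_stdLine (ZMod ℓ)).ne_zero i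
  set A : Matrix (Fin 2) (Fin 2) (ZMod ℓ) := !![w 0, 0; w 1, 0] with hA
  obtain ⟨o, ho⟩ := redHom_surjective hℓ A
  obtain ⟨B, hB⟩ : ∃ B : Matrix (Fin 2) (Fin 2) (ZMod ℓ), (A.adjugate * B).trace ≠ 0 := by
    by_cases h0 : w 0 = 0
    · refine ⟨!![0, 1; 0, 0], ?_⟩
      have h1 : w 1 ≠ 0 := fun h1 => hw0 (funext fun r => by fin_cases r <;> simp [h0, h1])
      simpa [hA, Matrix.adjugate_fin_two, Matrix.mul_apply, Matrix.trace_fin_two] using h1
    · refine ⟨!![0, 0; 0, 1], ?_⟩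
      simpa [hA, Matrix.adjugate_fin_two, Matrix.mul_apply, Matrix.trace_fin_two] using h0
  obtain ⟨o₁, ho₁⟩ := redHom_surjective hℓ B
  -- one of `o`, `o + ℓ o₁` has norm not divisible by `ℓ²`
  obtain ⟨o₂, hred, hnd⟩ : ∃ o₂, redHom hℓ o₂ = A ∧ ¬ ((ℓ : ℤ) * ℓ) ∣ Elt.nrm o₂ := by
    by_cases h : ((ℓ : ℤ) * ℓ) ∣ Elt.nrm o
    · refine ⟨o + (ℓ : ℤ) • o₁, ?_, fun h' => ?_⟩
      · rw [map_add, redHom_zsmul, ho]; simp
      rw [Elt.nrm_add', mul_smul_comm, Elt.tr_smul, Elt.nrm_smul] at h'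
      have h2 : (ℓ : ℤ) * ℓ ∣ (ℓ : ℤ) * Elt.tr (Elt.conj o * o₁) := by
        have h3 := dvd_sub (dvd_sub h' h)
          (Dvd.intro (Elt.nrm o₁) rfl : (ℓ : ℤ) * ℓ ∣ (ℓ : ℤ) * ℓ * Elt.nrm o₁)
        rw [show (ℓ : ℤ) * Elt.tr (Elt.conj o * o₁)
          = Elt.nrm o + (ℓ : ℤ) * Elt.tr (Elt.conj o * o₁) + (ℓ : ℤ) ^ 2 * Elt.nrm o₁ - Elt.nrm o
            - (ℓ : ℤ) * ℓ * Elt.nrm o₁ by ring]
        simpa only [smul_eq_mul] using h3
      have h4 : (ℓ : ℤ) ∣ Elt.tr (Elt.conj o * o₁) :=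
        Int.dvd_of_mul_dvd_mul_left (by exact_mod_cast (Fact.out : ℓ.Prime).ne_zero) h2
      rw [← ZMod.intCast_zmod_eq_zero_iff_dvd, ← trace_redHom hℓ, map_mul, redHom_conj, ho,
        ho₁] at h4
      exact hB h4
    · exact ⟨o, ho, h⟩
  have hcof : I.cof ℓ (I.base ℓ * o₂) = (I.baseNorm ℓ : ℤ) • o₂ := by
    refine smul_injective_O I.n_ne ?_
    rw [← I.conj_base_mul (I.mul_mem _ I.base_mem o₂), ← mul_assoc, conj_mul_eq_smul,
      smul_mul_assoc, one_mul, I.nrm_base, mul_smul]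
  have hr : I.red hℓ (I.base ℓ * o₂) = (I.baseNorm ℓ : ZMod ℓ) • A := by
    rw [red, hcof, redHom_zsmul, hred, Int.cast_natCast]
  refine ⟨I.base ℓ * o₂, ⟨I.mul_mem _ I.base_mem o₂, ?_⟩, ?_, fun t ht hdvd => hnd ?_⟩
  · rw [hr]
    exact fun j => ⟨if j = 0 then (I.baseNorm ℓ : ZMod ℓ) else 0, fun r => by
      fin_cases r <;> fin_cases j <;> simp [hA, hw]⟩
  · rw [hr, smul_ne_zero_iff]
    refine ⟨I.baseNorm_ne_zero, fun h => hw0 (funext fun r => ?_)⟩
    fin_cases r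
    · simpa [hA] using congr_fun (congr_fun h 0) 0
    · simpa [hA] using congr_fun (congr_fun h 1) 0
  · rw [Elt.nrm_mul, I.nrm_base, Nat.cast_mul] at ht
    have h2 : (I.baseNorm ℓ : ℤ) * Elt.nrm o₂ = ℓ * t :=
      mul_left_cancel₀ I.n_ne (by linear_combination ht)
    refine IsCoprime.dvd_of_dvd_mul_left ?_ (h2 ▸ mul_dvd_mul_left _ hdvd)
    exact (Int.isCoprime_iff_nat_coprime.mpr (by simpa using
      (I.coprime_baseNorm (ℓ := ℓ)).symm)).mul_left
      (Int.isCoprime_iff_nat_coprime.mpr (by simpa using (I.coprime_baseNorm (ℓ := ℓ)).symm))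

/-- The sublattice of a line, as an ideal of norm `ℓ n`. -/
def lineIdeal (i : Option (ZMod ℓ)) : RIdeal p where
  carrier := I.lineGroup hℓ i
  n := ℓ * I.n
  n_pos := Nat.mul_pos (Fact.out : ℓ.Prime).pos I.n_pos
  mul_mem z hz a := ⟨I.mul_mem z hz.1 a, by rw [I.red_mul hℓ hz.1]; exact colsIn_mul hz.2 _⟩
  dvd z hz z' hz' := I.dvd_of_colsIn hℓ hz.1 hz'.1 hz.2 hz'.2
  primitive := primitive_of_primes (I.lineGroup hℓ i)
    (Nat.mul_pos (Fact.out : ℓ.Prime).pos I.n_pos)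
    (fun z hz z' hz' => I.dvd_of_colsIn hℓ hz.1 hz'.1 hz.2 hz'.2) fun q hq => by
      by_cases hql : q = ℓ
      · subst hql
        obtain ⟨x, hx, -, h⟩ := I.exists_line_element hℓ i
        exact ⟨x, hx, h⟩
      · obtain ⟨z, hz, k, hk, hkq⟩ := I.primitive q hq.pos
        refine ⟨(ℓ : ℤ) • z, ⟨I.zsmul_mem hz _, ?_⟩, fun t ht hdvd => ?_⟩
        · rw [I.red_zsmul hℓ hz]
          simpa using colsIn_zero _
        · rw [Elt.nrm_smul, hk] at ht
          have h1 : (ℓ : ℤ) * k = t := mul_left_cancel₀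
            (mul_ne_zero (Nat.cast_ne_zero.mpr (Fact.out : ℓ.Prime).ne_zero : (ℓ : ℤ) ≠ 0) I.n_ne)
            (by push_cast at ht; linear_combination ht)
          rw [← h1, ← Nat.cast_mul, Int.natCast_dvd_natCast, hq.dvd_mul] at hdvd
          rcases hdvd with h | h
          · exact hql ((Nat.prime_dvd_prime_iff_eq hq Fact.out).mp h)
          · exact hq.one_lt.ne' (Nat.eq_one_of_dvd_coprimes hkq h dvd_rfl)

theorem lineIdeal_injective : Function.Injective (I.lineIdeal hℓ) := by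
  intro i j h
  obtain ⟨x, hx, hx0, -⟩ := I.exists_line_element hℓ i
  have hx' : x ∈ I.lineGroup hℓ j := by
    rwa [show I.lineGroup hℓ i = I.lineGroup hℓ j from congrArg RIdeal.carrier h] at hx
  obtain ⟨r, c, hrc⟩ : ∃ r c, I.red hℓ x r c ≠ 0 := by
    by_contra! h0
    exact hx0 (Matrix.ext h0)
  obtain ⟨s, hs⟩ := hx.2 c
  obtain ⟨t, ht⟩ := hx'.2 c
  have hs0 : s ≠ 0 := fun h0 => hrc (by rw [hs r, h0, zero_mul])
  refine (lineSystem_stdLine (ZMod ℓ)).unique i j (t / s) fun r => ?_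
  have := (hs r).symm.trans (ht r)
  field_simp
  linear_combination this

/-- Every subideal of relative norm `ℓ` is the sublattice of a line. -/
theorem exists_eq_lineIdeal (J : RIdeal p) (hle : J.carrier ≤ I.carrier) (hn : J.n = ℓ * I.n) :
    ∃ i, J = I.lineIdeal hℓ i := by
  set S : Set (Matrix (Fin 2) (Fin 2) (ZMod ℓ)) := (fun x => I.red hℓ x) '' (J.carrier : Set p.O)
  classical
  have hcount := card_lines_containing (lineSystem_stdLine (ZMod ℓ)) S
    (by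
      rintro _ ⟨x, hx, rfl⟩ _ ⟨y, hy, rfl⟩
      exact ⟨x + y, J.carrier.add_mem hx hy, I.red_add hℓ (hle hx) (hle hy)⟩)
    (by
      rintro _ ⟨x, hx, rfl⟩ B
      obtain ⟨o, rfl⟩ := redHom_surjective hℓ B
      exact ⟨x * o, J.mul_mem x hx o, I.red_mul hℓ (hle hx) o⟩)
    (by
      rintro _ ⟨x, hx, rfl⟩
      obtain ⟨t, ht⟩ := J.nrm_dvd hx
      refine I.det_red_eq_zero hℓ (hle hx) (t := t) ?_
      rw [ht, hn]
      push_cast
      ring)
  obtain ⟨i, hi⟩ : ∃ i, ∀ A ∈ S, ColsIn A (stdLine (ZMod ℓ) i) := by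
    obtain ⟨i, hi⟩ := Finset.card_pos.mp (lt_of_lt_of_eq
      (show 0 < _ by split_ifs <;> simp [Fintype.card_option]) hcount.symm)
    exact ⟨i, by simpa using hi⟩
  refine ⟨i, RIdeal.ext (le_antisymm ?_ ?_)⟩
  · exact fun x hx => ⟨hle hx, hi _ ⟨x, hx, rfl⟩⟩
  · intro y hy
    obtain ⟨z, hz, k, hk, hcop⟩ := J.primitive J.n J.n_pos
    refine (J.mem_iff hz hk hcop y).mpr ?_
    rw [hn]
    exact I.dvd_of_colsIn hℓ (hle hz) hy.1 (hi _ ⟨z, hz, rfl⟩) hy.2

end RIdeal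

end Fermat.Agent.LT.Quat
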