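import Fermat.Agent.LT.Theta.Bridge.Split
import Fermat.Agent.LT.Theta.Classes

/-!
# The rational algebra of the order, ideals and their classes

The order has a normed form (`normOrder`); two ideals have one class exactly when they are
equivalent in the rational algebra (`cls_eq_iff_qequiv`, `sep`).
-/

noncomputable section

namespace Fermat.Agent.LT.Quat

open Theta Matrix

/-! ## The norm form -/

namespace Elt

variable {k : Cst}

theorem tr_conj_mul_eq' {R : Type*} [CommRing R] (p q : Elt k R) :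
    tr (conj p * q)
      = coordEquiv p ⬝ᵥ ((gram k).map ((↑) : ℤ → R) *ᵥ coordEquiv q) := by
  simp [tr, conj, mul_a, mul_x, mul_y, coordEquiv, gram, Cst.dd, dotProduct, Matrix.mulVec,
    Fin.sum_univ_four]
  ring

theorem tr_conj_self {R : Type*} [CommRing R] (p : Elt k R) : tr (conj p * p) = 2 * nrm p := by
  rw [conj_mul', tr_smul]
  simp [tr, mul_comm]

/-- The norm as a quadratic form. -/
def nrmForm (k : Cst) : QuadraticForm ℚ (Elt k ℚ) where
  toFun := nrm
  toFun_smul t x := by rw [nrm_smul, smul_eq_mul]; ring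
  exists_companion' := ⟨LinearMap.mk₂ ℚ (fun p q => tr (conj p * q))
    (fun a b q => by simp only [tr, conj, mul_a, mul_x, mul_y, add_a, add_b, add_x, add_y]; ring)
    (fun t a q => by
      simp only [tr, conj, mul_a, mul_x, mul_y, smul_a, smul_b, smul_x, smul_y, smul_eq_mul]; ring)
    (fun a q q' => by rw [mul_add, tr_add])
    (fun t a q => by rw [mul_smul_comm, tr_smul, smul_eq_mul]),
    fun p q => by rw [LinearMap.mk₂_apply, nrm_add']; ring⟩

@[simp] theorem nrmForm_apply (x : Elt k ℚ) : nrmForm k x = nrm x := rfl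

/-- The standard basis. -/
def stdBasis (k : Cst) (i : Fin 4) : Elt k ℚ := coordEquiv.symm (Pi.single i 1)

theorem latVec_stdBasis (x : Fin 4 → ℤ) :
    latVec (stdBasis k) x = Elt.map (Int.castRingHom ℚ) (coordEquiv.symm x) := by
  simp only [latVec, Fin.sum_univ_four]
  ext <;> simp [stdBasis, coordEquiv, Elt.map]

end Elt

/-! ## The rational algebra and the normed order -/

namespace Params

variable (p : Params)

theorem kdd_eq : p.k.dd = (p.d : ℤ) := by
  have := p.c_sq
  simp only [Cst.dd, Params.k]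
  linarith

theorem kfour : 4 * p.k.M - p.k.r = (p.P : ℤ) := by
  have h := congrArg ((↑) : ℕ → ℤ) p.four
  simp only [Nat.cast_add, Nat.cast_mul] at h
  simp only [Params.k, Params.P]
  push_cast at h ⊢
  linarith

theorem disc_eq : p.k.dd * (4 * p.k.M - p.k.r) = (p.level : ℤ) := by
  rw [kdd_eq, kfour, level, Nat.cast_mul]

theorem level_pos : 0 < p.level := Nat.mul_pos p.d_pos p.P_pos

/-- The level is nonzero. -/
instance : NeZero p.level := ⟨p.level_pos.ne'⟩

theorem nrm_pos {F : Type*} [Field F] [LinearOrder F] [IsStrictOrderedRing F] {z : Elt p.k F}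
    (hz : z ≠ 0) : 0 < Elt.nrm z := by
  have hd : (0 : F) < (p.d : F) := Nat.cast_pos.mpr p.d_pos
  have hP : (0 : F) < (p.P : F) := Nat.cast_pos.mpr p.P_pos
  have hr : (0 : F) < (p.r : F) := Nat.cast_pos.mpr p.r_prime.pos
  have hd' : ((p.r : F) * (p.h : F) - (p.c : F) ^ 2) = (p.d : F) := by
    have := congrArg ((↑) : ℤ → F) p.kdd_eq
    simpa [Cst.dd, Params.k] using this
  have hP' : 4 * (p.M : F) - (p.r : F) = (p.P : F) := by
    have := congrArg ((↑) : ℤ → F) p.kfour
    simpa [Params.k] using this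
  -- Completing the squares: `4 r nrm z` is a positive combination of four squares.
  set A : F := 2 * z.a + (p.r : F) * z.x + (p.c : F) * z.y with hA
  set B : F := 2 * z.b - z.y with hB
  set C : F := (p.r : F) * z.x + (p.c : F) * z.y with hC
  have key : 4 * (p.r : F) * Elt.nrm z = (p.r : F) * A ^ 2 + (p.r : F) * (p.d : F) * B ^ 2
      + (p.P : F) * (C ^ 2 + (p.d : F) * z.y ^ 2) := by
    rw [← hd', ← hP']
    simp only [Elt.nrm, Params.k, hA, hB, hC, Int.cast_natCast]
    ring
  have h2 : (2 : F) ≠ 0 := two_ne_zero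
  by_contra hn
  push Not at hn
  have h1 : (p.r : F) * A ^ 2 + (p.r : F) * (p.d : F) * B ^ 2
      + (p.P : F) * (C ^ 2 + (p.d : F) * z.y ^ 2) ≤ 0 := key ▸ mul_nonpos_of_nonneg_of_nonpos
    (by positivity) hn
  -- So all four vanish, and with them the coordinates.
  have hA0 : A = 0 := by
    have : A ^ 2 ≤ 0 := by
      have t1 : 0 ≤ (p.r : F) * (p.d : F) * B ^ 2 + (p.P : F) * (C ^ 2 + (p.d : F) * z.y ^ 2) := by
        positivity
      nlinarith
    exact pow_eq_zero_iff two_ne_zero |>.mp (le_antisymm this (sq_nonneg A))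
  have hB0 : B = 0 := by
    have : B ^ 2 ≤ 0 := by
      have t1 : 0 ≤ (p.r : F) * A ^ 2 + (p.P : F) * (C ^ 2 + (p.d : F) * z.y ^ 2) := by positivity
      nlinarith [mul_pos hr hd]
    exact pow_eq_zero_iff two_ne_zero |>.mp (le_antisymm this (sq_nonneg B))
  have hC0 : C = 0 := by
    have : C ^ 2 ≤ 0 := by
      have t1 : 0 ≤ (p.r : F) * A ^ 2 + (p.r : F) * (p.d : F) * B ^ 2
          + (p.P : F) * ((p.d : F) * z.y ^ 2) := by positivity
      nlinarith
    exact pow_eq_zero_iff two_ne_zero |>.mp (le_antisymm this (sq_nonneg C))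
  have hy0 : z.y = 0 := by
    have : z.y ^ 2 ≤ 0 := by
      have t1 : 0 ≤ (p.r : F) * A ^ 2 + (p.r : F) * (p.d : F) * B ^ 2 + (p.P : F) * C ^ 2 := by
        positivity
      nlinarith [mul_pos hP hd]
    exact pow_eq_zero_iff two_ne_zero |>.mp (le_antisymm this (sq_nonneg _))
  rw [hC, hy0, mul_zero, add_zero] at hC0
  have hx0 : z.x = 0 := (mul_eq_zero.mp hC0).resolve_left hr.ne'
  rw [hA, hy0, hx0, mul_zero, mul_zero, add_zero, add_zero] at hA0
  rw [hB, hy0, sub_zero] at hB0
  exact hz (Elt.ext ((mul_eq_zero.mp hA0).resolve_left h2) ((mul_eq_zero.mp hB0).resolve_left h2)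
    hx0 hy0)

/-- The rational algebra. -/
abbrev H : Type := Elt p.k ℚ

/-- The embedding of the order. -/
def toH : p.O →+* p.H := Elt.map (Int.castRingHom ℚ)

/-- The order injects into its rational algebra. -/
theorem toH_injective : Function.Injective p.toH := fun z w h => by
  have h1 := congrArg Elt.a h
  have h2 := congrArg Elt.b h
  have h3 := congrArg Elt.x h
  have h4 := congrArg Elt.y h
  simp [toH, Elt.map] at h1 h2 h3 h4
  exact Elt.ext h1 h2 h3 h4

/-- The norm in the rational algebra extends that of the order. -/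
theorem nrm_toH (z : p.O) : Elt.nrm (p.toH z) = ((Elt.nrm z : ℤ) : ℚ) := Elt.map_nrm z _

/-- The map to the rational algebra is linear over the integers. -/
theorem toH_zsmul (n : ℤ) (z : p.O) : p.toH (n • z) = (n : ℚ) • p.toH z := by
  rw [map_zsmul, Int.cast_smul_eq_zsmul]

/-- The norm form of the order. -/
def orderForm : QForm p.level where
  mat := Elt.gram p.k
  symm := by
    ext i j
    fin_cases i <;> fin_cases j <;> simp [Elt.gram]
  even i := by fin_cases i <;> simp [Elt.gram, mul_assoc]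
  pos := by
    refine Matrix.PosDef.of_dotProduct_mulVec_pos (Matrix.IsHermitian.ext fun i j => ?_) fun x hx =>
      ?_
    · fin_cases i <;> fin_cases j <;> simp [Elt.gram]
    · simp only [star_trivial]
      have h : (Elt.coordEquiv.symm x : Elt p.k ℝ) ≠ 0 := fun h => hx <| by
        have h' := congrArg Elt.coordEquiv h
        rw [Equiv.apply_symm_apply] at h'
        rw [h']
        funext i
        fin_cases i <;> simp [Elt.coordEquiv]
      have h2 := Elt.tr_conj_mul_eq' (Elt.coordEquiv.symm x : Elt p.k ℝ) (Elt.coordEquiv.symm x)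
      rw [Elt.tr_conj_self, Equiv.apply_symm_apply] at h2
      rw [← h2]
      exact mul_pos two_pos (p.nrm_pos h)
  disc := p.level
  det_eq := by rw [Elt.det_gram, p.disc_eq]
  dual := Elt.gramDual p.k
  mul_dual := by rw [Elt.gram_mul_gramDual, p.disc_eq]
  dual_even i := by fin_cases i <;> simp [Elt.gramDual, mul_assoc]

theorem eval_orderForm (x : Fin 4 → ℤ) :
    p.orderForm.eval x = Elt.nrm (Elt.coordEquiv.symm x : p.O) := by
  have h := p.orderForm.two_mul_eval x
  have h2 := Elt.tr_conj_mul_eq p.k (Elt.coordEquiv.symm x) (Elt.coordEquiv.symm x)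
  rw [Elt.tr_conj_self, Equiv.apply_symm_apply] at h2
  rw [show p.orderForm.mat = Elt.gram p.k from rfl, ← h2] at h
  linarith

/-- The order with its norm form. -/
def normOrder : NormOrder p.level p.H where
  nrm := Elt.nrmForm p.k
  pos _ hx := p.nrm_pos hx
  nrm_mul := Elt.nrm_mul
  nrm_one := Elt.nrm_one
  adj := Elt.conj
  mul_adj := Elt.mul_conj'
  adj_mul := Elt.conj_mul'
  basis := Elt.stdBasis p.k
  indep := by
    rw [Fintype.linearIndependent_iff]
    intro g hg
    simp only [Fin.sum_univ_four] at hg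
    have h1 := congrArg Elt.a hg
    have h2 := congrArg Elt.b hg
    have h3 := congrArg Elt.x hg
    have h4 := congrArg Elt.y hg
    simp [Elt.stdBasis, Elt.coordEquiv] at h1 h2 h3 h4
    intro i
    fin_cases i <;> assumption
  form := p.orderForm
  value x := by
    rw [Elt.nrmForm_apply, Elt.latVec_stdBasis, Elt.map_nrm, p.eval_orderForm]
    rfl
  mul_mem x y := ⟨Elt.coordEquiv (Elt.coordEquiv.symm x * Elt.coordEquiv.symm y), by
    rw [Elt.latVec_stdBasis x, Elt.latVec_stdBasis y, Elt.latVec_stdBasis,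
      Equiv.symm_apply_apply, map_mul]⟩
  one_mem := ⟨Elt.coordEquiv 1, by rw [Elt.latVec_stdBasis, Equiv.symm_apply_apply, map_one]⟩
  adj_mem x := ⟨Elt.coordEquiv (Elt.conj (Elt.coordEquiv.symm x)), by
    rw [Elt.latVec_stdBasis, Elt.latVec_stdBasis, Equiv.symm_apply_apply, Elt.map_conj]⟩

theorem nrm_normOrder (x : p.H) : p.normOrder.nrm x = Elt.nrm x := rfl

theorem latVec_eq (x : Fin 4 → ℤ) :
    latVec p.normOrder.basis x = p.toH (Elt.coordEquiv.symm x) :=
  Elt.latVec_stdBasis (k := p.k) x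

theorem mem_carrier_iff {o : p.H} : o ∈ p.normOrder.carrier ↔ ∃ z, p.toH z = o := by
  constructor
  · rintro ⟨x, hx⟩
    exact ⟨Elt.coordEquiv.symm x, by rw [← hx, p.latVec_eq]⟩
  · rintro ⟨z, hz⟩
    refine ⟨Elt.coordEquiv z, ?_⟩
    rw [p.latVec_eq, Equiv.symm_apply_apply, hz]

theorem exists_clear (g : p.H) : ∃ (m : ℕ) (z : p.O), 0 < m ∧ p.toH z = (m : ℚ) • g := by
  refine ⟨g.a.den * g.b.den * g.x.den * g.y.den,
    ⟨g.a.num * (g.b.den * g.x.den * g.y.den : ℕ), g.b.num * (g.a.den * g.x.den * g.y.den : ℕ),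
      g.x.num * (g.a.den * g.b.den * g.y.den : ℕ), g.y.num * (g.a.den * g.b.den * g.x.den : ℕ)⟩,
    by positivity, ?_⟩
  ext <;> simp [toH, Elt.map, ← Rat.mul_den_eq_num] <;> ring

end Params

/-! ## Ideals and their classes -/

namespace RIdeal

variable {p : Params}

theorem conj_mul_dvd (I : RIdeal p) {z z' : p.O} (hz : z ∈ I.carrier) (hz' : z' ∈ I.carrier) :
    ∃ o : p.H, o ∈ p.normOrder.carrier ∧
      Elt.conj (p.toH z) * p.toH z' = (I.n : ℚ) • o := by
  obtain ⟨o, ho⟩ := I.dvd z hz z' hz'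
  refine ⟨p.toH o, p.mem_carrier_iff.mpr ⟨o, rfl⟩, ?_⟩
  rw [show Elt.conj (p.toH z) = p.toH (Elt.conj z) from (Elt.map_conj z _).symm, ← map_mul, ho,
    p.toH_zsmul, Int.cast_natCast]

theorem n_ne_zero (I : RIdeal p) : (I.n : ℚ) ≠ 0 := Nat.cast_ne_zero.mpr I.n_pos.ne'

/-- The lattice of an ideal in the rational algebra, with its scale. -/
def toIdl (I : RIdeal p) : p.normOrder.Idl where
  lat := I.carrier.map p.toH.toAddMonoidHom
  ν := I.n
  ν_pos := Nat.cast_pos.mpr I.n_pos
  mul_mem := by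
    rintro _ ⟨z, hz, rfl⟩ o ho
    obtain ⟨w, rfl⟩ := p.mem_carrier_iff.mp ho
    exact ⟨z * w, I.mul_mem z hz w, map_mul p.toH z w⟩
  gen := by
    intro q hq
    obtain ⟨z, hz, k, hnz, hk⟩ := I.primitive q hq.pos
    have hk' : ¬ (q : ℤ) ∣ (k : ℤ) := fun h =>
      hq.one_lt.ne' (Nat.eq_one_of_dvd_coprimes hk (Int.natCast_dvd_natCast.mp h) dvd_rfl)
    refine ⟨p.toH z, k, k, ⟨z, hz, rfl⟩, hk', hk', ?_, ?_⟩
    · rw [p.nrm_normOrder, p.nrm_toH, hnz]
      push_cast
      ring
    · rintro _ ⟨x, hx, rfl⟩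
      obtain ⟨o, ho, he⟩ := I.conj_mul_dvd hz hx
      refine ⟨o, ho, ?_⟩
      have h := congrArg (fun w => p.toH z * w) he
      simp only [← mul_assoc, Elt.mul_conj', smul_mul_assoc, one_mul, mul_smul_comm] at h
      rw [p.nrm_toH, hnz] at h
      push_cast at h
      rw [← smul_smul] at h
      exact smul_right_injective _ I.n_ne_zero (by simpa using h)

/-- The equivalence of ideals in the rational algebra. -/
def QEquiv (I J : RIdeal p) : Prop :=
  ∃ g : p.H, g ≠ 0 ∧ NormOrder.translate g (I.toIdl.lat : Set p.H) = (J.toIdl.lat : Set p.H)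

theorem translate_translate (g g' : p.H) (s : Set p.H) :
    NormOrder.translate g (NormOrder.translate g' s) = NormOrder.translate (g * g') s := by
  simp [NormOrder.translate, Set.image_image, mul_assoc]

theorem qnrm_ne_zero {g : p.H} (hg : g ≠ 0) : p.normOrder.nrm g ≠ 0 := (p.normOrder.pos g hg).ne'

theorem QEquiv.refl (I : RIdeal p) : QEquiv I I :=
  ⟨1, fun h => one_ne_zero (congrArg Elt.a h), by simp [NormOrder.translate]⟩

/-- Equivalence of ideals in the rational algebra is symmetric. -/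
theorem QEquiv.symm {I J : RIdeal p} (h : QEquiv I J) : QEquiv J I := by
  obtain ⟨g, hg, he⟩ := h
  set u := p.normOrder.toUnit g (qnrm_ne_zero hg)
  refine ⟨((u⁻¹ : p.Hˣ) : p.H), fun h0 => ?_, ?_⟩
  · have h1 := u.mul_inv
    rw [h0, mul_zero] at h1
    exact zero_ne_one (congrArg Elt.a h1)
  · rw [← he, translate_translate, show g = (u : p.H) from rfl, Units.inv_mul]
    simp [NormOrder.translate]

/-- Equivalence of ideals in the rational algebra is transitive. -/
theorem QEquiv.trans {I J K : RIdeal p} (h : QEquiv I J) (h' : QEquiv J K) : QEquiv I K := by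
  obtain ⟨g, hg, he⟩ := h
  obtain ⟨g', hg', he'⟩ := h'
  refine ⟨g' * g, fun h0 => mul_ne_zero (qnrm_ne_zero hg') (qnrm_ne_zero hg) ?_,
    by rw [← translate_translate, he, he']⟩
  rw [← p.normOrder.nrm_mul, h0, map_zero]

/-- The scales of equivalent ideals. -/
theorem nrm_mul_n {I J : RIdeal p} {g : p.H}
    (h : NormOrder.translate g (I.toIdl.lat : Set p.H) = (J.toIdl.lat : Set p.H)) (hg : g ≠ 0) :
    p.normOrder.nrm g * I.toIdl.ν = J.toIdl.ν := by
  have key : ∀ (I J : p.normOrder.Idl) (g : p.H),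
      NormOrder.translate g (I.lat : Set p.H) ⊆ (J.lat : Set p.H) →
      ∃ m : ℤ, p.normOrder.nrm g * I.ν / J.ν = m :=
        fun I J g h => rat_eq_int_of_local fun q hq => by
    obtain ⟨α, k, u, hα, -, hu, hnα, -⟩ := I.gen q hq
    obtain ⟨z, hz⟩ := J.exists_nrm_eq (h ⟨α, hα, rfl⟩)
    rw [p.normOrder.nrm_mul, hnα] at hz
    refine ⟨u, hu, z, ?_⟩
    field_simp [J.ν_pos.ne']
    linear_combination hz
  obtain ⟨a, ha⟩ := key I.toIdl J.toIdl g h.subset
  set u := p.normOrder.toUnit g (qnrm_ne_zero hg)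
  have hsub : NormOrder.translate ((u⁻¹ : p.Hˣ) : p.H) (J.toIdl.lat : Set p.H)
      ⊆ (I.toIdl.lat : Set p.H) := by
    rw [← h, translate_translate, show g = (u : p.H) from rfl, Units.inv_mul]
    simp [NormOrder.translate]
  obtain ⟨b, hb⟩ := key J.toIdl I.toIdl _ hsub
  have hI := I.toIdl.ν_pos
  have hJ := J.toIdl.ν_pos
  have hab : (a : ℚ) * b = 1 := by
    have h1 : p.normOrder.nrm g * p.normOrder.nrm ((u⁻¹ : p.Hˣ) : p.H) = 1 := by
      rw [← p.normOrder.nrm_mul, show g = (u : p.H) from rfl, Units.mul_inv, p.normOrder.nrm_one]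
    rw [← ha, ← hb]
    field_simp
    linear_combination h1
  have ha0 : (0 : ℚ) < a := by
    rw [← ha]; exact div_pos (mul_pos (p.normOrder.pos g hg) hI) hJ
  have : a = 1 := Int.eq_one_of_mul_eq_one_right (le_of_lt (by exact_mod_cast ha0))
    (by exact_mod_cast hab)
  rw [this, Int.cast_one, div_eq_one_iff_eq hJ.ne'] at ha
  exact ha

theorem rel_iff {I J : RIdeal p} : Rel I J ↔ QEquiv I J := by
  constructor
  -- A relation `z I = m J` is equivalence by `z / m`.
  · rintro ⟨z, hz, m, hm, he⟩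
    have hm0 : (m : ℚ) ≠ 0 := Nat.cast_ne_zero.mpr hm.ne'
    have hnz : Elt.nrm (p.toH z) ≠ 0 := by rw [p.nrm_toH]; exact_mod_cast hz
    refine ⟨(m : ℚ)⁻¹ • p.toH z, fun h0 => ?_, ?_⟩
    · have h1 := congrArg (fun w => (m : ℚ) • w) h0
      simp only [smul_inv_smul₀ hm0, smul_zero] at h1
      exact hnz (by rw [h1]; simp [Elt.nrm])
    ext x
    constructor
    · rintro ⟨_, ⟨w, hw, rfl⟩, rfl⟩
      obtain ⟨w', hw', he'⟩ : z * w ∈ J.scaled (m : p.O) := he ▸ ⟨w, hw, rfl⟩
      refine ⟨w', hw', ?_⟩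
      change p.toH w' = (m : ℚ)⁻¹ • p.toH z * p.toH w
      have he'' : (m : p.O) * w' = z * w := he'
      rw [smul_mul_assoc, ← map_mul, ← he'', map_mul, map_natCast, ← nsmul_eq_mul,
        ← Nat.cast_smul_eq_nsmul ℚ, inv_smul_smul₀ hm0]
    · rintro ⟨w', hw', rfl⟩
      obtain ⟨w, hw, he'⟩ : (m : p.O) * w' ∈ I.scaled z := he.symm ▸ ⟨w', hw', rfl⟩
      refine ⟨p.toH w, ⟨w, hw, rfl⟩, ?_⟩
      change (m : ℚ)⁻¹ • p.toH z * p.toH w = p.toH w'
      have he'' : z * w = (m : p.O) * w' := he'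
      rw [smul_mul_assoc, ← map_mul, he'', map_mul, map_natCast, ← nsmul_eq_mul,
        ← Nat.cast_smul_eq_nsmul ℚ, inv_smul_smul₀ hm0]
  · rintro ⟨g, hg, he⟩
    -- Conversely clear the denominator of `g`.
    obtain ⟨m, z, hm, hz⟩ := p.exists_clear g
    have hm0 : (m : ℚ) ≠ 0 := Nat.cast_ne_zero.mpr hm.ne'
    refine ⟨z, fun h0 => qnrm_ne_zero hg ?_, m, hm, ?_⟩
    · have h := p.nrm_toH z
      rw [hz, h0, Elt.nrm_smul] at h
      simpa [hm0, Params.normOrder] using h
    · ext x
      constructor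
      · rintro ⟨w, hw, rfl⟩
        obtain ⟨w', hw', he'⟩ : g * p.toH w ∈ J.toIdl.lat :=
          he.subset ⟨p.toH w, ⟨w, hw, rfl⟩, rfl⟩
        refine ⟨w', hw', p.toH_injective ?_⟩
        change p.toH ((m : p.O) * w') = p.toH (z * w)
        rw [map_mul, map_mul, hz, smul_mul_assoc, map_natCast, ← nsmul_eq_mul,
          ← Nat.cast_smul_eq_nsmul ℚ]
        exact congrArg ((m : ℚ) • ·) he'
      · rintro ⟨w', hw', rfl⟩
        obtain ⟨_, ⟨w, hw, rfl⟩, he'⟩ := he.symm.subset ⟨w', hw', rfl⟩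
        refine ⟨w, hw, p.toH_injective ?_⟩
        change p.toH (z * w) = p.toH ((m : p.O) * w')
        rw [map_mul, map_mul, hz, smul_mul_assoc, map_natCast, ← nsmul_eq_mul,
          ← Nat.cast_smul_eq_nsmul ℚ]
        exact congrArg ((m : ℚ) • ·) he'

theorem cls_eq_iff_qequiv {I J : RIdeal p} : cls I = cls J ↔ QEquiv I J := by
  constructor
  · intro h
    have h' := Quot.eqvGen_exact h
    clear h
    induction h' with
    | rel x y hxy => exact rel_iff.mp hxy
    | refl x => exact QEquiv.refl x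
    | symm x y _ ih => exact ih.symm
    | trans x y z _ _ ih ih' => exact ih.trans ih'
  · exact fun h => Quot.sound (rel_iff.mpr h)

theorem sep (c c' : Cls p) (g : p.H)
    (h : NormOrder.translate g (c.out.toIdl.lat : Set p.H) = (c'.out.toIdl.lat : Set p.H))
    (hn : p.normOrder.nrm g * c.out.toIdl.ν = c'.out.toIdl.ν) : c = c' := by
  have hg : g ≠ 0 := fun h0 => by
    rw [h0, map_zero, zero_mul] at hn
    exact c'.out.toIdl.ν_pos.ne hn
  have := cls_eq_iff_qequiv.mpr ⟨g, hg, h⟩
  rwa [show cls c.out = c from Quot.out_eq c, show cls c'.out = c' from Quot.out_eq c'] at this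

end RIdeal

end Fermat.Agent.LT.Quat
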