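import Fermat.Agent.LT.Theta.Bridge.Basic

/-!
# The order splits modulo a prime not dividing its discriminant
-/

noncomputable section

namespace Fermat.Agent.LT.Quat.Elt

open Matrix

variable {k : Cst} {F : Type*} [Field F]

/-- A nonzero element of norm zero. -/
theorem exists_isotropic [Fintype F] :
    ∃ z : Elt k F, z ≠ 0 ∧ nrm z = 0 := by
  classical
  by_cases h2 : ringChar F = 2
  · obtain ⟨s, hs⟩ := FiniteField.isSquare_of_char_two h2 (-(((k.r : F) * k.h - (k.c : F) ^ 2)))
    refine ⟨⟨s, 1, 0, 0⟩, fun h => one_ne_zero (congrArg Elt.b h), ?_⟩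
    simp only [nrm]
    linear_combination -hs
  · have hodd := FiniteField.odd_card_of_char_ne_two h2
    have h20 : (2 : F) ≠ 0 := Ring.two_ne_zero h2
    set dd : F := (k.r : F) * k.h - (k.c : F) ^ 2 with hdd
    set t : F := (k.r : F) * (4 * k.M - k.r) with ht
    by_cases hd0 : dd = 0
    · refine ⟨⟨0, 1, 0, 0⟩, fun h => one_ne_zero (congrArg Elt.b h), ?_⟩
      simp only [nrm]
      linear_combination hd0
    obtain ⟨a, b, hab⟩ := FiniteField.exists_root_sum_quadratic
      (f := (Polynomial.X ^ 2 : Polynomial F))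
      (g := Polynomial.C dd * Polynomial.X ^ 2 + Polynomial.C t)
      (Polynomial.degree_X_pow 2) (by
        have h := Polynomial.degree_quadratic (R := F) (a := dd) (b := 0) (c := t) hd0
        simpa using h) hodd
    simp only [Polynomial.eval_pow, Polynomial.eval_X, Polynomial.eval_add, Polynomial.eval_mul,
      Polynomial.eval_C] at hab
    refine ⟨⟨a - k.r, b, 2, 0⟩, fun h => h20 (congrArg Elt.x h), ?_⟩
    simp only [nrm]
    linear_combination hab

/-- Matrix units. -/
structure Units2 (k : Cst) (F : Type*) [Field F] where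
  e : Elt k F
  f : Elt k F
  u : Elt k F
  v : Elt k F
  add_ef : e + f = 1
  ee : e * e = e
  ff : f * f = f
  ef : e * f = 0
  fe : f * e = 0
  eu : e * u = u
  uf : u * f = u
  ue : u * e = 0
  fu : f * u = 0
  fv : f * v = v
  ve : v * e = v
  ev : e * v = 0
  vf : v * f = 0
  uu : u * u = 0
  vv : v * v = 0
  uv : u * v = e
  vu : v * u = f
  tr_e : tr e = 1
  tr_f : tr f = 1
  tr_u : tr u = 0
  tr_v : tr v = 0
  sand_e : ∀ a, e * a * e = tr (e * a) • e
  sand_f : ∀ a, f * a * f = tr (f * a) • f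

lemma sandwich {e : Elt k F} (hn : nrm e = 0) (a : Elt k F) : e * a * e = tr (e * a) • e := by
  rw [mul_mul_self, hn, smul_ofScalar (conj a), show (ofScalar 0 : Elt k F) = 0 from rfl, zero_mul,
    sub_zero]

lemma tr_zero' : tr (0 : Elt k F) = 0 := by simp [tr]

/-- For complementary rank one idempotents `e`, `f` some `e a f` is nonzero, as the algebra is
larger than `F e + F f`. -/
private lemma exists_offDiag [Fintype F] (hd : ((k.dd * (4 * k.M - k.r) : ℤ) : F) ≠ 0)
    {e f : Elt k F} (hsum : e + f = 1) (hne : nrm e = 0) (hnf : nrm f = 0) :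
    ∃ a, e * a * f ≠ 0 := by
  classical
  by_contra! h
  have h' : ∀ a, f * a * e = 0 := fun a => eq_zero_of_tr_mul hd fun o => by
    rw [show f * a * e * o = f * (a * e * o) by simp only [mul_assoc], tr_mul_comm,
      show a * e * o * f = a * (e * o * f) by simp only [mul_assoc], h, mul_zero, tr_zero']
  have hdec : ∀ a, a = tr (e * a) • e + tr (f * a) • f := fun a => by
    calc a = (e + f) * a * (e + f) := by rw [hsum, one_mul, mul_one]
      _ = e * a * e + e * a * f + (f * a * e + f * a * f) := by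
        rw [add_mul, add_mul, mul_add, mul_add]
      _ = _ := by rw [h, h', add_zero, zero_add, sandwich hne, sandwich hnf]
  have hinj : Function.Injective fun a : Elt k F => (tr (e * a), tr (f * a)) := fun a b hab => by
    rw [hdec a, hdec b]
    simp only [Prod.mk.injEq] at hab
    rw [hab.1, hab.2]
  have h1 := Fintype.card_le_of_injective _ hinj
  rw [card_elt, Fintype.card_prod] at h1
  have h3 : 2 ≤ Fintype.card F := Fintype.one_lt_card
  nlinarith [Nat.mul_le_mul h3 h3, h1]

/-- Matrix units exist over a finite field in which the discriminant is invertible. -/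
theorem exists_units2 [Fintype F] (hd : ((k.dd * (4 * k.M - k.r) : ℤ) : F) ≠ 0) :
    Nonempty (Units2 k F) := by
  classical
  obtain ⟨z, hz, hnz⟩ := exists_isotropic (k := k) (F := F)
  obtain ⟨o, ho⟩ : ∃ o, tr (z * o) ≠ 0 := by
    by_contra! h
    exact hz (eq_zero_of_tr_mul hd h)
  -- `e` is a trace one multiple of `z o`, hence idempotent, and `f = 1 - e`
  set e := (tr (z * o))⁻¹ • (z * o) with he
  have hne : nrm e = 0 := by rw [he, nrm_smul, nrm_mul, hnz]; ring
  have hte : tr e = 1 := by rw [he, tr_smul, inv_mul_cancel₀ ho]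
  have hee : e * e = e := by rw [mul_self_eq, hte, hne, one_smul, zero_smul, sub_zero]
  set f := 1 - e with hf
  have hef : e * f = 0 := by rw [hf, mul_sub, mul_one, hee, sub_self]
  have hfe : f * e = 0 := by rw [hf, sub_mul, one_mul, hee, sub_self]
  have hff : f * f = f := by
    conv_lhs => arg 1; rw [hf]
    rw [sub_mul, one_mul, hef, sub_zero]
  have hfc : f = conj e := by rw [conj_eq, hte, one_smul, hf]
  have hnf : nrm f = 0 := by rw [hfc, nrm_conj, hne]
  have htf : tr f = 1 := by
    have h := tr_add e f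
    rw [hf, add_sub_cancel, hte, show tr (1 : Elt k F) = 2 by simp [tr], ← hf] at h
    linear_combination -h
  have hsum : e + f = 1 := by rw [hf, add_sub_cancel]
  -- `u = e a f`, and `v` in `f A e` normalised by `tr (u v) = 1`
  obtain ⟨a, ha⟩ := exists_offDiag hd hsum hne hnf
  obtain ⟨u, hu⟩ : ∃ u, u = e * a * f := ⟨_, rfl⟩
  rw [← hu] at ha
  obtain ⟨o', ho'⟩ : ∃ o', tr (u * o') ≠ 0 := by
    by_contra! h
    exact ha (eq_zero_of_tr_mul hd h)
  obtain ⟨v, hv⟩ : ∃ v, v = (tr (u * o'))⁻¹ • (f * o' * e) := ⟨_, rfl⟩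
  -- relations among the units
  have heu : e * u = u := by rw [hu, ← mul_assoc, ← mul_assoc, hee]
  have huf : u * f = u := by rw [hu, mul_assoc, hff]
  have hfu : f * u = 0 := by rw [hu, ← mul_assoc, ← mul_assoc, hfe, zero_mul, zero_mul]
  have hue : u * e = 0 := by rw [hu, mul_assoc, hfe, mul_zero]
  have hfv : f * v = v := by rw [hv, mul_smul_comm, ← mul_assoc, ← mul_assoc, hff]
  have hve : v * e = v := by rw [hv, smul_mul_assoc, mul_assoc (f * o'), hee]
  have hev : e * v = 0 := by
    rw [hv, mul_smul_comm, ← mul_assoc, ← mul_assoc, hef, zero_mul, zero_mul, smul_zero]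
  have hvf : v * f = 0 := by rw [hv, smul_mul_assoc, mul_assoc (f * o'), hef, mul_zero, smul_zero]
  have htu : tr u = 0 := by rw [← huf, tr_mul_comm, hfu, tr_zero']
  have htv : tr v = 0 := by rw [← hfv, tr_mul_comm, hvf, tr_zero']
  have huu : u * u = 0 := by
    calc u * u = (u * f) * (e * u) := by rw [huf, heu]
      _ = u * (f * e) * u := by simp only [mul_assoc]
      _ = 0 := by rw [hfe, mul_zero, zero_mul]
  have hvv : v * v = 0 := by
    calc v * v = (v * e) * (f * v) := by rw [hve, hfv]
      _ = v * (e * f) * v := by simp only [mul_assoc]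
      _ = 0 := by rw [hef, mul_zero, zero_mul]
  -- the products `u v` and `v u` lie in `F e` and `F f`, with trace one
  have htuv : tr (u * v) = 1 := by
    rw [hv, mul_smul_comm, tr_smul, show u * (f * o' * e) = u * f * o' * e by
      simp only [mul_assoc], huf, tr_mul_comm (u * o') e, ← mul_assoc, heu, inv_mul_cancel₀ ho']
  have huv : u * v = e := by
    calc u * v = e * (u * v) * e := by rw [← mul_assoc, heu, mul_assoc, hve]
      _ = tr (e * (u * v)) • e := sandwich hne _
      _ = e := by rw [← mul_assoc, heu, htuv, one_smul]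
  have hvu : v * u = f := by
    calc v * u = f * (v * u) * f := by rw [← mul_assoc, hfv, mul_assoc, huf]
      _ = tr (f * (v * u)) • f := sandwich hnf _
      _ = f := by rw [← mul_assoc, hfv, tr_mul_comm, htuv, one_smul]
  exact ⟨⟨e, f, u, v, hsum, hee, hff, hef, hfe, heu, huf, hue, hfu, hfv, hve, hev, hvf, huu, hvv,
    huv, hvu, hte, htf, htu, htv, sandwich hne, sandwich hnf⟩⟩

namespace Units2

variable (U : Units2 k F)

/-- The matrix of an element. -/
def toMat (a : Elt k F) : Matrix (Fin 2) (Fin 2) F :=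
  !![tr (a * U.e), tr (a * U.v); tr (a * U.u), tr (a * U.f)]

/-- The element of a matrix. -/
def ofMat (A : Matrix (Fin 2) (Fin 2) F) : Elt k F :=
  A 0 0 • U.e + A 0 1 • U.u + A 1 0 • U.v + A 1 1 • U.f

lemma ofMat_toMat (a : Elt k F) : U.ofMat (U.toMat a) = a := by
  have h1 : U.e * a * U.f = tr (a * U.v) • U.u := by
    calc U.e * a * U.f = U.e * a * (U.v * U.u) := by rw [U.vu]
      _ = (U.e * (a * U.v) * U.e) * U.u := by
        rw [mul_assoc (U.e * (a * U.v)), U.eu]
        simp only [mul_assoc]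
      _ = tr (U.e * (a * U.v)) • (U.e * U.u) := by rw [U.sand_e, smul_mul_assoc]
      _ = _ := by rw [U.eu, tr_mul_comm, mul_assoc, U.ve]
  have h2 : U.f * a * U.e = tr (a * U.u) • U.v := by
    calc U.f * a * U.e = U.f * a * (U.u * U.v) := by rw [U.uv]
      _ = (U.f * (a * U.u) * U.f) * U.v := by
        rw [mul_assoc (U.f * (a * U.u)), U.fv]
        simp only [mul_assoc]
      _ = tr (U.f * (a * U.u)) • (U.f * U.v) := by rw [U.sand_f, smul_mul_assoc]
      _ = _ := by rw [U.fv, tr_mul_comm, mul_assoc, U.uf]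
  conv_rhs => rw [← one_mul a, ← mul_one (1 * a), ← U.add_ef]
  rw [add_mul, add_mul, mul_add, mul_add, h1, h2, U.sand_e, U.sand_f, tr_mul_comm U.e,
    tr_mul_comm U.f]
  simp only [ofMat, toMat, Matrix.of_apply, Matrix.cons_val', Matrix.cons_val_zero,
    Matrix.cons_val_one, Matrix.cons_val_fin_one]
  abel

lemma toMat_ofMat (A : Matrix (Fin 2) (Fin 2) F) : U.toMat (U.ofMat A) = A := by
  ext i j
  fin_cases i <;> fin_cases j <;>
    simp [toMat, ofMat, add_mul, tr_add, tr_smul, U.ee, U.ef, U.fe, U.ff, U.eu,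
      U.uf, U.ue, U.fu, U.fv, U.ve, U.ev, U.vf, U.uu, U.vv, U.uv, U.vu, U.tr_e, U.tr_f, U.tr_u,
      U.tr_v]

lemma ofMat_mul (A B : Matrix (Fin 2) (Fin 2) F) : U.ofMat (A * B) = U.ofMat A * U.ofMat B := by
  simp only [ofMat, Matrix.mul_apply, Fin.sum_univ_two, add_mul, mul_add, smul_mul_assoc,
    mul_smul_comm, U.ee, U.ef, U.fe, U.ff, U.eu, U.uf, U.ue, U.fu, U.fv, U.ve, U.ev,
    U.vf, U.uu, U.vv, U.uv, U.vu, smul_zero, add_zero, zero_add]
  module

/-- The splitting isomorphism. -/
def splitEquiv : Elt k F ≃+* Matrix (Fin 2) (Fin 2) F where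
  toFun := U.toMat
  invFun := U.ofMat
  left_inv := U.ofMat_toMat
  right_inv := U.toMat_ofMat
  map_add' a b := by
    ext i j
    fin_cases i <;> fin_cases j <;> simp [toMat, add_mul, tr_add]
  map_mul' a b := by
    conv_lhs => rw [← U.ofMat_toMat a, ← U.ofMat_toMat b, ← U.ofMat_mul, U.toMat_ofMat]

lemma toMat_smul (t : F) (a : Elt k F) : U.toMat (t • a) = t • U.toMat a := by
  ext i j
  fin_cases i <;> fin_cases j <;> simp [toMat, tr_smul]

lemma toMat_one : U.toMat (1 : Elt k F) = 1 := U.splitEquiv.map_one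

lemma toMat_conj (a : Elt k F) : U.toMat (conj a) = (U.toMat a).adjugate := by
  have hone : (1 : Matrix (Fin 2) (Fin 2) F) = !![1, 0; 0, 1] := Matrix.one_fin_two
  have htr : tr a = U.toMat a 0 0 + U.toMat a 1 1 := by
    show tr a = tr (a * U.e) + tr (a * U.f)
    rw [← tr_add, ← mul_add, U.add_ef, mul_one]
  have h : U.toMat (conj a) = tr a • (1 : Matrix (Fin 2) (Fin 2) F) - U.toMat a := by
    rw [conj_eq]
    show U.splitEquiv (_ - a) = _
    rw [map_sub]
    show U.toMat (tr a • 1) - U.toMat a = _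
    rw [toMat_smul, toMat_one]
  rw [h, Matrix.adjugate_fin_two, htr, hone]
  ext i j
  fin_cases i <;> fin_cases j <;> simp

lemma det_toMat (a : Elt k F) : (U.toMat a).det = nrm a := by
  have h := congrArg U.splitEquiv (mul_conj' a)
  rw [map_mul] at h
  change U.toMat a * U.toMat (conj a) = U.toMat (nrm a • 1) at h
  rw [toMat_conj, Matrix.mul_adjugate, toMat_smul, toMat_one] at h
  have := congr_fun (congr_fun h 0) 0
  simpa using this

end Units2

end Fermat.Agent.LT.Quat.Elt
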